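import Fermat.Statements.S20
import Fermat.Agent.Lib.MF_Asm
import Fermat.Agent.Lib.MF_Degree
import Fermat.Agent.Lib.MF_Surj
import Fermat.Agent.Lib.MF_SA
import Fermat.Agent.Lib.RR_Main
import Fermat.Agent.Lib.ES_Main

set_option autoImplicit false
open CuspForm

namespace Fermat.Agent.S20

theorem result (N : ℕ) [NeZero N] :
    (Module.finrank ℂ (CuspForm (CongruenceSubgroup.Gamma0 N) 2) : ℚ) = ModularCurve.genusFormula N := by
  have hfd := Fermat.Agent.MF.finiteDimensional_FC N
  exact Fermat.Agent.MF.finrank_cusp_eq_genusFormula_of N (Fermat.Agent.MF.transcendental_jC N) hfd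
    (Fermat.Agent.MF.finrank_FC N)
    (fun W hfin hinf => Fermat.Agent.RR.finrank_L_canonical (Fermat.Agent.MF.jC N)
      (Fermat.Agent.MF.transcendental_jC N) W hfin hinf)
    (fun W hfin hinf => Fermat.Agent.MF.exists_injective_to_cuspForm N (Fermat.Agent.RR.LSpace W)
      (fun y hy => Fermat.Agent.MF.sa_integral N W hfin y hy)
      (fun y hy γ => Fermat.Agent.MF.sa_cusp_order N W hinf y hy γ))
    ⟨Fermat.Agent.ES.finiteDimensional_cuspForm N, Fermat.Agent.ES.two_finrank_le N⟩

end Fermat.Agent.S20
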