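/-
S21 (Eichler–Shimura): the period pairing
`periodHomPair N : S₂(Γ₀(N)) × S₂(Γ₀(N)) → Hom_par(Γ₀(N), ℂ)` is injective with range the
parabolic homomorphisms.  Injectivity and the dimension bound are in `Lib/ES_Main.lean`
(`Fermat.Agent.ES.eichlerShimura_of_finrank`); the dimension formula is `S20`.
-/
import Fermat.Statements.S21
import Fermat.Agent.S20
import Fermat.Agent.Lib.ES_Main

set_option autoImplicit false
open ModularCurve

namespace Fermat.Agent.S21

theorem result (N : ℕ) [NeZero N] :
    Function.Injective (ModularCurve.periodHomPair N)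
      ∧ LinearMap.range (ModularCurve.periodHomPair N)
          = ModularCurve.Period.parabolicHoms ℂ (CongruenceSubgroup.Gamma0 N) ℂ :=
  Fermat.Agent.ES.eichlerShimura_of_finrank N (Fermat.Agent.S20.result N)

end Fermat.Agent.S21
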