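import Fermat.Statements.S22
import Fermat.Agent.Lib.H3_AlgZ
import Fermat.Agent.Lib.H3_Lattice
import Fermat.Agent.Lib.H3_Small
import Fermat.Agent.Lib.H3_Sep

set_option autoImplicit false
open CuspForm

namespace Fermat.Agent.S22

open Fermat.Agent.Lib.H3

theorem result (N : ℕ) [NeZero N] (k : ℤ) (S : Set ℕ) :
    Module.Finite ℤ (CuspForm.heckeAlgebra N k S) := by
  rcases le_or_gt k 1 with hk | hk
  · have h1 : Subsingleton (CuspForm (CongruenceSubgroup.Gamma0 N) k) :=
      ⟨fun f g => by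
        rw [cuspForm_eq_zero_of_weight_le_one hk f, cuspForm_eq_zero_of_weight_le_one hk g]⟩
    have h2 : Subsingleton (Module.End ℂ (CuspForm (CongruenceSubgroup.Gamma0 N) k)) :=
      ⟨fun a b => LinearMap.ext fun x => Subsingleton.elim _ _⟩
    have h3 : Subsingleton (CuspForm.heckeAlgebra N k S) :=
      ⟨fun a b => Subtype.ext (Subsingleton.elim _ _)⟩
    infer_instance
  · obtain ⟨w, rfl⟩ : ∃ w : ℕ, k = (w : ℤ) + 2 := ⟨(k - 2).toNat, by omega⟩
    refine moduleFinite_adjoin_of_lattice (CuspForm.heckeGenerators N _ S) (perLattice N w)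
      (perLattice_fg N w) ?_ ?_
    · rintro T (⟨ℓ, hℓ, hℓN, -, rfl⟩ | ⟨q, hqN, hq, -, rfl⟩)
      · exact perLattice_stable_heckeT hℓ hℓN
      · exact perLattice_stable_heckeU hqN
    · intro f hf
      exact period_separating f (fun γ hγ n => hf _ (perL_mem_perLattice hγ ⟨n, rfl⟩))

end Fermat.Agent.S22
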