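import Fermat.Statements.S49
import Fermat.Prelude.Def_CuspForm_HeckeLocal
import Fermat.Prelude.Thm_ModularFormClass_qCoeff_heckeT
import Fermat.Prelude.Thm_ModularFormClass_qCoeff_heckeU
import Fermat.Prelude.Thm_CongruenceSubgroup_one_mem_strictPeriods_Gamma0
import Fermat.Prelude.Thm_ModularForm_sturm_bound_Gamma0

set_option autoImplicit false
open CuspForm EisensteinWeightOne CongruenceSubgroup ModularFormClass
open FLT FLT.AbstractIntegralStructure

namespace Fermat.Agent.S49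

theorem hΓ (N : ℕ) :
    (1 : ℝ) ∈ (Subgroup.map (Matrix.SpecialLinearGroup.mapGL ℝ) (Gamma0 N)).strictPeriods :=
  CongruenceSubgroup.one_mem_strictPeriods_Gamma0 N

theorem qc_add {N : ℕ} {k : ℤ} (f g : CuspForm (Gamma0 N) k) (n : ℕ) :
    qCoeff ⇑(f + g) n = qCoeff ⇑f n + qCoeff ⇑g n := by
  simp only [qCoeff, CuspForm.coe_add]
  rw [ModularFormClass.qExpansion_add one_pos (hΓ N) f g, map_add]

theorem qc_smul {N : ℕ} {k : ℤ} (c : ℂ) (f : CuspForm (Gamma0 N) k) (n : ℕ) :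
    qCoeff ⇑(c • f) n = c * qCoeff ⇑f n := by
  have h1 : ⇑(c • f) = c • ⇑f := by
    ext z
    simp
  simp only [qCoeff, h1]
  rw [ModularFormClass.qExpansion_smul one_pos (hΓ N) c f]
  simp

theorem qc_zero {N : ℕ} {k : ℤ} (n : ℕ) : qCoeff ⇑(0 : CuspForm (Gamma0 N) k) n = 0 := by
  simp only [qCoeff, CuspForm.coe_zero]
  rw [UpperHalfPlane.qExpansion_zero, map_zero]

theorem qc_cusp {N : ℕ} {k : ℤ} (f : CuspForm (Gamma0 N) k) : qCoeff ⇑f 0 = 0 :=
  CuspFormClass.qExpansion_coeff_zero f one_pos (hΓ N)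

theorem qc_heckeT {N : ℕ} {p : ℕ} (hp : p.Prime) (hpN : ¬ p ∣ N) (f : CuspForm (Gamma0 N) 2)
    (n : ℕ) :
    qCoeff ⇑(CuspForm.heckeTLin 2 hp hpN f) n =
      qCoeff ⇑f (n * p) + if p ∣ n then (p : ℂ) * qCoeff ⇑f (n / p) else 0 := by
  rw [CuspForm.coe_heckeTLin_apply, ModularFormClass.qCoeff_heckeT f (hΓ N) hp.ne_zero n,
    ModularForm.coeffHeckeT_apply]
  norm_num

theorem qc_heckeU {N : ℕ} [NeZero N] {p : ℕ} (hp : p ≠ 0) (hpN : p ∣ N)
    (f : CuspForm (Gamma0 N) 2) (n : ℕ) :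
    qCoeff ⇑(CuspForm.heckeULin 2 hpN f) n = qCoeff ⇑f (n * p) := by
  rw [CuspForm.coe_heckeULin_apply, ModularFormClass.qCoeff_heckeU f (hΓ N) hp n,
    ModularForm.coeffHeckeU_apply]

theorem eq_zero_of_qc {N : ℕ} [NeZero N] {k : ℤ} (f : CuspForm (Gamma0 N) k)
    (h : ∀ n, qCoeff ⇑f n = 0) : f = 0 := by
  have hmf : (ModularFormClass.modularForm f : ModularForm (Gamma0 N) k) = 0 := by
    refine ModularForm.sturm_bound_Gamma0 N _ fun n _ ↦ ?_
    have := h n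
    simpa [qCoeff] using this
  have hcoe : (⇑f : UpperHalfPlane → ℂ) = 0 := by
    have := congrArg (fun F : ModularForm (Gamma0 N) k ↦ (⇑F : UpperHalfPlane → ℂ)) hmf
    simpa using this
  exact DFunLike.coe_injective (hcoe.trans CuspForm.coe_zero.symm)



theorem eig_mul {R : Type*} [CommRing R] {e b : ℕ → R} (h : FormalHecke.IsEigensystem e b) :
    ∀ m n : ℕ, m.Coprime n → b (m * n) = b m * b n := by
  intro m
  induction m using Nat.strong_induction_on with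
  | _ m ih =>
    intro n hmn
    rcases Nat.lt_or_ge m 2 with hm | hm
    · interval_cases m
      · have hn : n = 1 := by simpa using hmn
        subst hn
        simp [h.1]
      · simp [h.1]
    · obtain ⟨ℓ, hℓ, hℓm⟩ := Nat.exists_prime_and_dvd (show m ≠ 1 by omega)
      obtain ⟨m', rfl⟩ := hℓm
      have hℓ2 := hℓ.two_le
      have hm'pos : 0 < m' := by
        rcases Nat.eq_zero_or_pos m' with h0 | h0
        · subst h0; simp at hm
        · exact h0
      have hm'lt : m' < ℓ * m' := by nlinarith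
      have hcop' : m'.Coprime n := Nat.Coprime.coprime_dvd_left (Dvd.intro_left ℓ rfl) hmn
      have hcopℓ : ℓ.Coprime n := Nat.Coprime.coprime_dvd_left (Dvd.intro m' rfl) hmn
      have hℓn : ¬ ℓ ∣ n := fun hdvd => by
        have h1 : ℓ ∣ Nat.gcd ℓ n := Nat.dvd_gcd dvd_rfl hdvd
        rw [hcopℓ] at h1
        exact hℓ.one_lt.ne' (Nat.dvd_one.mp h1)
      have e1 := h.2 ℓ hℓ (m' * n)
      have e2 := h.2 ℓ hℓ m'
      have ih1 := ih m' hm'lt n hcop'
      rw [mul_assoc]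
      by_cases hd : ℓ ∣ m'
      · obtain ⟨m'', rfl⟩ := hd
        have hm''pos : 0 < m'' := by
          rcases Nat.eq_zero_or_pos m'' with h0 | h0
          · subst h0; simp at hm'pos
          · exact h0
        have hm''lt : m'' < ℓ * (ℓ * m'') := by nlinarith
        have hcop'' : m''.Coprime n := Nat.Coprime.coprime_dvd_left (Dvd.intro_left ℓ rfl) hcop'
        have ih2 := ih m'' hm''lt n hcop''
        have hd1 : ℓ ∣ ℓ * m'' * n := Dvd.intro _ (mul_assoc ℓ m'' n).symm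
        have hq1 : ℓ * m'' * n / ℓ = m'' * n := by
          rw [mul_assoc]; exact Nat.mul_div_cancel_left _ hℓ.pos
        have hq2 : ℓ * m'' / ℓ = m'' := Nat.mul_div_cancel_left _ hℓ.pos
        rw [if_pos hd1, hq1, ih2, ih1] at e1
        rw [if_pos (Dvd.intro m'' rfl), hq2] at e2
        linear_combination e1 - b n * e2
      · have hd1 : ¬ ℓ ∣ m' * n := fun hdvd =>
          (hℓ.dvd_mul.mp hdvd).elim hd hℓn
        rw [if_neg hd1, ih1] at e1
        rw [if_neg hd] at e2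
        linear_combination e1 - b n * e2



theorem exists_common_eigenvector {K V : Type*} [Field K] [IsAlgClosed K] [AddCommGroup V]
    [Module K V] [FiniteDimensional K V]
    (S : Set (Module.End K V)) (hS : ∀ s ∈ S, ∀ t ∈ S, s * t = t * s) :
    ∀ (n : ℕ) (W : Submodule K V), Module.finrank K W = n → W ≠ ⊥ →
      (∀ t ∈ S, ∀ w ∈ W, t w ∈ W) →
      ∃ w ∈ W, w ≠ 0 ∧ ∀ t ∈ S, ∃ μ : K, t w = μ • w := by
  intro n
  induction n using Nat.strong_induction_on with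
  | _ n ih =>
    intro W hn hW hstab
    by_cases hscal : ∀ t ∈ S, ∃ μ : K, ∀ w ∈ W, t w = μ • w
    · obtain ⟨w, hw, hw0⟩ := (Submodule.ne_bot_iff W).mp hW
      refine ⟨w, hw, hw0, fun t ht => ?_⟩
      obtain ⟨μ, hμ⟩ := hscal t ht
      exact ⟨μ, hμ w hw⟩
    · push Not at hscal
      obtain ⟨t, ht, htns⟩ := hscal
      have : Nontrivial W := Submodule.nontrivial_iff_ne_bot.mpr hW
      obtain ⟨μ, hμ⟩ := Module.End.exists_eigenvalue (t.restrict (hstab t ht))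
      obtain ⟨w, hw⟩ := hμ.exists_hasEigenvector
      have hw0 : (w : V) ≠ 0 := fun h => hw.2 (Subtype.ext h)
      have hweq : t (w : V) = μ • (w : V) := by
        have := hw.apply_eq_smul
        have h2 := congrArg Subtype.val this
        simpa using h2
      let W' : Submodule K V := W ⊓ LinearMap.ker (t - μ • (1 : Module.End K V))
      have hmem : ∀ v : V, v ∈ W' ↔ v ∈ W ∧ t v = μ • v := by
        intro v
        simp only [W', Submodule.mem_inf, LinearMap.mem_ker, LinearMap.sub_apply,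
          LinearMap.smul_apply, Module.End.one_apply, sub_eq_zero]
      have hW'le : W' ≤ W := inf_le_left
      have hwW' : (w : V) ∈ W' := (hmem _).mpr ⟨w.2, hweq⟩
      have hW'ne : W' ≠ ⊥ := fun h => hw0 (by
        have := hwW'
        rw [h] at this
        simpa using this)
      have hW'lt : W' < W := by
        refine lt_of_le_of_ne hW'le fun heq => ?_
        obtain ⟨v, hv, hvne⟩ := htns μ
        have : v ∈ W' := heq ▸ hv
        exact hvne ((hmem v).mp this).2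
      have hfr : Module.finrank K W' < n := hn ▸ Submodule.finrank_lt_finrank_of_lt hW'lt
      have hstab' : ∀ s ∈ S, ∀ v ∈ W', s v ∈ W' := by
        intro s hs v hv
        rw [hmem] at hv ⊢
        refine ⟨hstab s hs v hv.1, ?_⟩
        have hcomm : t (s v) = s (t v) := by
          have := congrArg (fun f : Module.End K V => f v) (hS t ht s hs)
          simpa using this
        rw [hcomm, hv.2, map_smul]
      obtain ⟨x, hx, hx0, hxe⟩ := ih _ hfr W' rfl hW'ne hstab'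
      exact ⟨x, hW'le hx, hx0, hxe⟩


theorem hint_of_basis {N : ℕ} (h : CuspForm.HasIntegralBasis N) : CuspForm.HasIntegralStructure N 2 := by
  unfold CuspForm.HasIntegralStructure
  unfold CuspForm.HasIntegralBasis at h
  rw [eq_top_iff, ← h]
  apply Submodule.span_mono
  intro f hf
  apply Submodule.subset_span
  intro n
  obtain ⟨m, hm⟩ := Subring.mem_bot.mp (hf n)
  exact ⟨m, hm.symm⟩

theorem finiteT {N : ℕ} [NeZero N] (hint : CuspForm.HasIntegralStructure N 2) :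
    Module.Finite ℤ (heckeAlgebra N 2 (∅ : Set ℕ)) := by
  haveI := intLattice.moduleFinite N
  haveI := intLattice.moduleFree N
  exact Module.Finite.of_injective ((latticeActionHom N (∅ : Set ℕ)).toIntAlgHom.toLinearMap)
    (latticeActionHom_injective N ∅ hint)

theorem finiteV {N : ℕ} [NeZero N] (hint : CuspForm.HasIntegralStructure N 2) :
    FiniteDimensional ℂ (CuspForm (Gamma0 N) 2) := by
  obtain ⟨s, hs⟩ := intLattice_fg N 2
  refine Module.finite_def.mpr ⟨s, ?_⟩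
  unfold CuspForm.HasIntegralStructure at hint
  rw [eq_top_iff, ← hint, Submodule.span_le, ← hs]
  intro x hx
  exact Submodule.span_subset_span ℤ ℂ _ hx


theorem exists_eigen {N : ℕ} [NeZero N] (hint : CuspForm.HasIntegralStructure N 2)
    (𝔪₁ : Ideal (heckeAlgebra N 2 (∅ : Set ℕ))) [h𝔪₁ : 𝔪₁.IsMaximal] :
    ∃ (g : CuspForm (Gamma0 N) 2) (χ : heckeAlgebra N 2 (∅ : Set ℕ) →+* ℂ), g ≠ 0 ∧
      (∀ t : heckeAlgebra N 2 (∅ : Set ℕ), t.1 g = χ t • g) ∧ RingHom.ker χ ≤ 𝔪₁ := by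
  classical
  have hfT := finiteT hint
  have hfV := finiteV hint
  have hnoeth : IsNoetherianRing (heckeAlgebra N 2 (∅ : Set ℕ)) := IsNoetherianRing.of_finite ℤ _
  obtain ⟨𝔭, h𝔭min, h𝔭le⟩ := Ideal.exists_minimalPrimes_le (I := ⊥) (J := 𝔪₁) bot_le
  have h𝔭ass : 𝔭 ∈ associatedPrimes (heckeAlgebra N 2 (∅ : Set ℕ)) (heckeAlgebra N 2 (∅ : Set ℕ)) := by
    apply Module.associatedPrimes.minimalPrimes_annihilator_subset_associatedPrimes
      (heckeAlgebra N 2 (∅ : Set ℕ)) (heckeAlgebra N 2 (∅ : Set ℕ))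
    have hann : Module.annihilator (heckeAlgebra N 2 (∅ : Set ℕ)) (heckeAlgebra N 2 (∅ : Set ℕ)) = ⊥ := by
      rw [eq_bot_iff]
      intro r hr
      have := Module.mem_annihilator.mp hr 1
      simpa using this
    rw [hann]
    exact h𝔭min
  obtain ⟨h𝔭prime, t₀, ht₀⟩ := (isAssociatedPrime_iff).mp h𝔭ass
  have hmem𝔭 : ∀ r, r ∈ 𝔭 ↔ r * t₀ = 0 := by
    intro r
    rw [ht₀, Submodule.mem_colon_singleton]
    simp
  have ht₀ne : t₀ ≠ 0 := by
    rintro rfl
    apply h𝔭prime.ne_top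
    rw [Ideal.eq_top_iff_one, hmem𝔭]
    simp
  have ht₀ne' : t₀.1 ≠ 0 := fun h => ht₀ne (Subtype.ext h)
  obtain ⟨v, hv⟩ : ∃ v, t₀.1 v ≠ 0 := by
    by_contra hcon
    push Not at hcon
    exact ht₀ne' (LinearMap.ext hcon)
  let W : Submodule ℂ (CuspForm (Gamma0 N) 2) := ⨅ r : 𝔭, LinearMap.ker r.1.1
  have hWmem : ∀ w, w ∈ W ↔ ∀ r ∈ 𝔭, r.1 w = 0 := by
    intro w
    simp [W, Submodule.mem_iInf]
  have hw₀ : t₀.1 v ∈ W := by
    rw [hWmem]
    intro r hr
    have h1 := (hmem𝔭 r).mp hr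
    have h2 : (r * t₀).1 v = 0 := by rw [h1]; rfl
    exact h2
  have hWne : W ≠ ⊥ := fun h => hv (by rw [h] at hw₀; simpa using hw₀)
  let S : Set (Module.End ℂ (CuspForm (Gamma0 N) 2)) := (heckeAlgebra N 2 (∅ : Set ℕ) : Set _)
  have hS : ∀ s ∈ S, ∀ t ∈ S, s * t = t * s := by
    intro s hs t ht
    have := mul_comm (⟨s, hs⟩ : heckeAlgebra N 2 (∅ : Set ℕ)) ⟨t, ht⟩
    exact congrArg Subtype.val this
  have hstab : ∀ t ∈ S, ∀ w ∈ W, t w ∈ W := by
    intro t ht w hw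
    rw [hWmem] at hw ⊢
    intro r hr
    have hc := hS r.1 r.2 t ht
    have h3 : r.1 (t w) = t (r.1 w) := by
      have := congrArg (fun f : Module.End ℂ (CuspForm (Gamma0 N) 2) => f w) hc
      simpa using this
    rw [h3, hw r hr, map_zero]
  obtain ⟨g, hgW, hg0, hge⟩ := exists_common_eigenvector S hS _ W rfl hWne hstab
  choose μ hμ using fun t : heckeAlgebra N 2 (∅ : Set ℕ) => hge t.1 t.2
  have hinj : ∀ a b : ℂ, a • g = b • g → a = b := fun a b hab => smul_left_injective ℂ hg0 hab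
  let χ : heckeAlgebra N 2 (∅ : Set ℕ) →+* ℂ :=
    { toFun := μ
      map_one' := hinj _ _ (by rw [← hμ 1, one_smul]; rfl)
      map_mul' := fun s t => hinj _ _ (by
        rw [← hμ (s * t)]
        show s.1 (t.1 g) = _
        rw [hμ t, map_smul, hμ s, smul_smul, mul_comm])
      map_zero' := hinj _ _ (by rw [← hμ 0, zero_smul]; rfl)
      map_add' := fun s t => hinj _ _ (by
        rw [← hμ (s + t), add_smul, ← hμ s, ← hμ t]; rfl) }
  refine ⟨g, χ, hg0, hμ, ?_⟩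
  have h𝔭χ : 𝔭 ≤ RingHom.ker χ := by
    intro r hr
    rw [RingHom.mem_ker]
    have h1 : r.1 g = 0 := (hWmem g).mp hgW r hr
    have h2 : χ r • g = 0 := by rw [← h1]; exact (hμ r).symm
    exact (smul_eq_zero.mp h2).resolve_right hg0
  have hχ𝔭 : RingHom.ker χ ≤ 𝔭 := by
    intro x hx
    by_contra hx𝔭
    have hlt := Ideal.comap_lt_comap_of_integral_mem_sdiff (R := ℤ) h𝔭χ ⟨hx, hx𝔭⟩
      (Algebra.IsIntegral.isIntegral x)
    have hbot : (RingHom.ker χ).comap (algebraMap ℤ (heckeAlgebra N 2 (∅ : Set ℕ))) = ⊥ := by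
      rw [eq_bot_iff]
      intro n hn
      rw [Ideal.mem_comap, RingHom.mem_ker] at hn
      have : ((n : ℤ) : ℂ) = 0 := by simpa using hn
      simpa using this
    rw [hbot] at hlt
    exact not_lt_bot hlt
  exact hχ𝔭.trans h𝔭le

theorem exists_lying {N : ℕ} [NeZero N] (hint : CuspForm.HasIntegralStructure N 2)
    (χ : heckeAlgebra N 2 (∅ : Set ℕ) →+* ℂ) (𝔪₁ : Ideal (heckeAlgebra N 2 (∅ : Set ℕ)))
    [𝔪₁.IsMaximal] (hker : RingHom.ker χ ≤ 𝔪₁) :
    ∃ (χ' : heckeAlgebra N 2 (∅ : Set ℕ) →+* integralClosure ℤ ℂ)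
      (Q : Ideal (integralClosure ℤ ℂ)),
      Q.IsMaximal ∧ (∀ t, ((χ' t : integralClosure ℤ ℂ) : ℂ) = χ t) ∧ ∀ t ∈ 𝔪₁, χ' t ∈ Q := by
  have hfT := finiteT hint
  have hint' : ∀ t, χ t ∈ integralClosure ℤ ℂ := fun t => by
    have h1 : IsIntegral ℤ t := Algebra.IsIntegral.isIntegral t
    exact h1.map χ.toIntAlgHom
  let χ' : heckeAlgebra N 2 (∅ : Set ℕ) →+* integralClosure ℤ ℂ :=
    χ.codRestrict (integralClosure ℤ ℂ) hint'
  letI : Algebra (heckeAlgebra N 2 (∅ : Set ℕ)) (integralClosure ℤ ℂ) := χ'.toAlgebra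
  have hII : Algebra.IsIntegral (heckeAlgebra N 2 (∅ : Set ℕ)) (integralClosure ℤ ℂ) :=
    ⟨fun z => (Algebra.IsIntegral.isIntegral (R := ℤ) z).tower_top⟩
  have hker' : RingHom.ker (algebraMap (heckeAlgebra N 2 (∅ : Set ℕ)) (integralClosure ℤ ℂ)) ≤ 𝔪₁ := by
    intro t ht
    apply hker
    rw [RingHom.mem_ker] at ht ⊢
    have h2 : χ' t = 0 := ht
    have : ((χ' t : integralClosure ℤ ℂ) : ℂ) = 0 := by rw [h2]; rfl
    exact this
  obtain ⟨Q, hQmax, hQ⟩ := Ideal.exists_ideal_over_maximal_of_isIntegral 𝔪₁ hker'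
  refine ⟨χ', Q, hQmax, fun t => rfl, fun t ht => ?_⟩
  have : t ∈ Q.comap (algebraMap (heckeAlgebra N 2 (∅ : Set ℕ)) (integralClosure ℤ ℂ)) := hQ ▸ ht
  exact this


theorem normalize {N : ℕ} [NeZero N] (g : CuspForm (Gamma0 N) 2) (hg0 : g ≠ 0)
    (χ : heckeAlgebra N 2 (∅ : Set ℕ) →+* ℂ)
    (hχ : ∀ t : heckeAlgebra N 2 (∅ : Set ℕ), t.1 g = χ t • g) :
    ∃ f : CuspForm (Gamma0 N) 2, f.IsNormalizedEigenform ∧
      ∀ (ℓ : ℕ) (hℓ : ℓ.Prime) (hℓN : ¬ ℓ ∣ N),
        qCoeff ⇑f ℓ = χ (heckeAlgebra.T hℓ hℓN (Set.notMem_empty ℓ)) := by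
  classical
  let c : ℕ → ℂ := fun n => qCoeff ⇑g n
  let e : ℕ → ℂ := fun ℓ => if ℓ ∣ N then 0 else (ℓ : ℂ)
  let μ : ℕ → ℂ := fun ℓ =>
    if hℓ : ℓ.Prime then
      (if hN : ℓ ∣ N then χ (heckeAlgebra.U hℓ hN (Set.notMem_empty ℓ))
        else χ (heckeAlgebra.T hℓ hN (Set.notMem_empty ℓ)))
    else 0
  have hrel : ∀ ℓ : ℕ, ℓ.Prime → ∀ n : ℕ,
      c (n * ℓ) + e ℓ * (if ℓ ∣ n then c (n / ℓ) else 0) = μ ℓ * c n := by
    intro ℓ hℓ n
    by_cases hN : ℓ ∣ N
    · have h1 := hχ (heckeAlgebra.U hℓ hN (Set.notMem_empty ℓ))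
      have h2 := congrArg (fun F : CuspForm (Gamma0 N) 2 => qCoeff ⇑F n) h1
      simp only [heckeAlgebra.coe_U] at h2
      rw [qc_heckeU hℓ.ne_zero hN, qc_smul] at h2
      simp only [e, μ, hN, hℓ, if_true, dif_pos, zero_mul, add_zero]
      exact h2
    · have h1 := hχ (heckeAlgebra.T hℓ hN (Set.notMem_empty ℓ))
      have h2 := congrArg (fun F : CuspForm (Gamma0 N) 2 => qCoeff ⇑F n) h1
      simp only [heckeAlgebra.coe_T] at h2
      rw [qc_heckeT hℓ hN, qc_smul] at h2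
      simp only [e, μ, hN, hℓ, if_false, dif_pos, dif_neg, not_false_eq_true]
      rw [← h2]
      split_ifs <;> simp [c]
  have hc0 : c 0 = 0 := qc_cusp g
  have hc1 : c 1 ≠ 0 := by
    intro h1
    apply hg0
    apply eq_zero_of_qc
    intro n
    induction n using Nat.strong_induction_on with
    | _ n ih =>
      rcases Nat.lt_or_ge n 2 with hn | hn
      · interval_cases n
        · exact hc0
        · exact h1
      · obtain ⟨ℓ, hℓ, hℓn⟩ := Nat.exists_prime_and_dvd (show n ≠ 1 by omega)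
        obtain ⟨m, rfl⟩ := hℓn
        have hℓ2 := hℓ.two_le
        have hm : 0 < m := by
          rcases Nat.eq_zero_or_pos m with h0 | h0
          · subst h0; simp at hn
          · exact h0
        have hr := hrel ℓ hℓ m
        rw [mul_comm m ℓ] at hr
        have hm1 : c m = 0 := ih m (by nlinarith)
        have hm2 : (if ℓ ∣ m then c (m / ℓ) else 0) = 0 := by
          split_ifs with hd
          · exact ih (m / ℓ) (lt_of_le_of_lt (Nat.div_le_self m ℓ) (by nlinarith))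
          · rfl
        rw [hm1, hm2] at hr
        simpa using hr
  let f : CuspForm (Gamma0 N) 2 := (c 1)⁻¹ • g
  have hb : ∀ n, qCoeff ⇑f n = (c 1)⁻¹ * c n := fun n => qc_smul _ g n
  have hb1 : qCoeff ⇑f 1 = 1 := by rw [hb]; exact inv_mul_cancel₀ hc1
  have hbℓ : ∀ ℓ : ℕ, ℓ.Prime → qCoeff ⇑f ℓ = μ ℓ := by
    intro ℓ hℓ
    have hr := hrel ℓ hℓ 1
    have hnd : ¬ ℓ ∣ 1 := fun hd => hℓ.one_lt.ne' (Nat.dvd_one.mp hd)
    rw [if_neg hnd, mul_zero, add_zero, one_mul] at hr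
    rw [hb, hr]
    field_simp
  have heig : FormalHecke.IsEigensystem e (fun n => qCoeff ⇑f n) := by
    refine ⟨hb1, fun ℓ hℓ n => ?_⟩
    have hr := hrel ℓ hℓ n
    show qCoeff ⇑f (ℓ * n) + e ℓ * (if ℓ ∣ n then qCoeff ⇑f (n / ℓ) else 0) =
      qCoeff ⇑f ℓ * qCoeff ⇑f n
    rw [hbℓ ℓ hℓ, mul_comm ℓ n]
    simp only [hb]
    split_ifs with hd
    · rw [if_pos hd] at hr
      linear_combination (c 1)⁻¹ * hr
    · rw [if_neg hd] at hr
      linear_combination (c 1)⁻¹ * hr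
  refine ⟨f, ⟨hb1, eig_mul heig, ?_, ?_⟩, ?_⟩
  · intro p r hp hpN
    have h1 := heig.2 p hp (p ^ (r + 1))
    have hd : p ∣ p ^ (r + 1) := dvd_pow_self p (Nat.succ_ne_zero r)
    have hq : p ^ (r + 1) / p = p ^ r := by
      rw [pow_succ, Nat.mul_div_cancel _ hp.pos]
    have hpp : p * p ^ (r + 1) = p ^ (r + 2) := by ring
    simp only [if_pos hd, hq, hpp, e, if_neg hpN] at h1
    linear_combination h1
  · intro p r hp hpN
    have h1 := heig.2 p hp (p ^ (r + 1))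
    have hpp : p * p ^ (r + 1) = p ^ (r + 2) := by ring
    simp only [hpp, e, if_pos hpN, zero_mul, add_zero] at h1
    exact h1
  · intro ℓ hℓ hℓN
    rw [hbℓ ℓ hℓ]
    simp only [μ, hℓ, hℓN, dif_pos, dif_neg, not_false_eq_true]


theorem bridge_mod3 (a : ℕ → ℤ) (n : ℕ) :
    (((bridgeProduct a).coeff n : ℤ) : ZMod 3) = ((a n : ℤ) : ZMod 3) := by
  have hE : PowerSeries.map (Int.castRingHom (ZMod 3)) (e1Chi3In ℤ) = 1 := by
    ext k
    simp only [e1Chi3In, e1Chi3, PowerSeries.coeff_map, PowerSeries.coeff_mk, PowerSeries.coeff_one]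
    split_ifs with hk
    · simp
    · have h6 : (6 : ZMod 3) = 0 := by decide
      simp [h6]
  have h2 := congrArg (PowerSeries.coeff n)
    (show PowerSeries.map (Int.castRingHom (ZMod 3)) (bridgeProduct a) =
        PowerSeries.map (Int.castRingHom (ZMod 3)) (PowerSeries.mk a) by
      unfold bridgeProduct
      rw [map_mul, hE, mul_one])
  simpa using h2

theorem chi_mod3 (ℓ : ℕ) : ((chiNegThree ℓ : ℤ) : ZMod 3) = (ℓ : ZMod 3) := by
  have h : (ℓ : ZMod 3) = ((ℓ % 3 : ℕ) : ZMod 3) := (ZMod.natCast_mod ℓ 3).symm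
  rw [h]
  unfold chiNegThree
  have h3 : ℓ % 3 < 3 := Nat.mod_lt _ (by norm_num)
  interval_cases (ℓ % 3) <;> simp <;> decide

theorem intCast_apply' {N : ℕ} [NeZero N] (z : ℤ) (f : CuspForm (Gamma0 N) 2) :
    ((z : heckeAlgebra N 2 (∅ : Set ℕ)) : Module.End ℂ (CuspForm (Gamma0 N) 2)) f
      = (z : ℂ) • f := by
  rw [show ((z : heckeAlgebra N 2 (∅ : Set ℕ)) : Module.End ℂ (CuspForm (Gamma0 N) 2))
    = (z : Module.End ℂ (CuspForm (Gamma0 N) 2)) from rfl]
  rw [Module.End.intCast_apply, Int.cast_smul_eq_zsmul]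

noncomputable def mIdeal {N : ℕ} [NeZero N] (f₀ : CuspForm (Gamma0 N) 2) :
    Ideal (heckeAlgebra N 2 (∅ : Set ℕ)) where
  carrier := {t | ∀ n : ℕ, ∃ m : ℤ, qCoeff ⇑(t.1 f₀) n = ((3 * m : ℤ) : ℂ)}
  add_mem' := by
    intro s t hs ht n
    obtain ⟨m1, h1⟩ := hs n
    obtain ⟨m2, h2⟩ := ht n
    refine ⟨m1 + m2, ?_⟩
    have h3 : (s + t).1 f₀ = s.1 f₀ + t.1 f₀ := rfl
    rw [h3, qc_add, h1, h2]
    push_cast
    ring
  zero_mem' := by
    intro n
    refine ⟨0, ?_⟩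
    have h3 : (0 : heckeAlgebra N 2 (∅ : Set ℕ)).1 f₀ = 0 := rfl
    rw [h3, qc_zero]
    simp
  smul_mem' := by
    intro s t ht n
    have h3 : (s • t).1 f₀ = s.1 (t.1 f₀) := rfl
    rw [h3]
    have hg' : ((3 : ℂ)⁻¹ • t.1 f₀) ∈ intLattice N 2 := by
      apply Submodule.subset_span
      intro k
      obtain ⟨m, hm⟩ := ht k
      refine ⟨m, ?_⟩
      rw [qc_smul, hm]
      push_cast
      field_simp
    have hs := mem_intLattice_of_mem_heckeAlgebra one_le_two s.2 hg'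
    rw [P2MW.S_CuspForm_intLattice_fg.W3WsD.mem_intLattice_iff] at hs
    obtain ⟨m, hm⟩ := hs n
    refine ⟨m, ?_⟩
    have h4 : s.1 (t.1 f₀) = (3 : ℂ) • s.1 ((3 : ℂ)⁻¹ • t.1 f₀) := by
      rw [map_smul, smul_smul]
      norm_num
    rw [h4, qc_smul, hm]
    push_cast
    ring

theorem result
    {N : ℕ} [NeZero N] (h : CuspForm.HasIntegralBasis N) {a : ℕ → ℤ}
    (heig : FormalHecke.IsEigensystem
      (fun ℓ => if ℓ ∣ N then 0 else ((chiNegThree ℓ : ℤ) : ℤ)) a)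
    (hreal : CuspForm.IsLatticeRealized N a) :
    ∃ (f : CuspForm (Gamma0 N) 2) (_ : f.IsNormalizedEigenform)
      (𝔪' : Ideal (integralClosure ℤ ℂ)), 𝔪'.IsMaximal ∧
      ((3 : ℕ) : integralClosure ℤ ℂ) ∈ 𝔪' ∧
      ∀ (ℓ : ℕ) (_ : ℓ.Prime) (_ : ¬ ℓ ∣ N),
        ∃ c : integralClosure ℤ ℂ, (c : ℂ) = ModularFormClass.qCoeff f ℓ ∧
          c - (a ℓ : integralClosure ℤ ℂ) ∈ 𝔪' := by
  classical
  have hint := hint_of_basis h
  obtain ⟨f₀, hf₀, af, haf, hdiv⟩ := hreal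
  have hcong : ∀ n, ((af n : ℤ) : ZMod 3) = ((a n : ℤ) : ZMod 3) := by
    intro n
    rw [← bridge_mod3 a n]
    have h1 := (ZMod.intCast_zmod_eq_zero_iff_dvd _ 3).mpr (hdiv n)
    push_cast at h1
    exact sub_eq_zero.mp h1
  have h1 : (1 : heckeAlgebra N 2 (∅ : Set ℕ)) ∉ mIdeal f₀ := by
    intro hmem
    obtain ⟨m, hm⟩ := hmem 1
    have h3 : (1 : heckeAlgebra N 2 (∅ : Set ℕ)).1 f₀ = f₀ := rfl
    rw [h3, ← haf 1] at hm
    have hm' : af 1 = 3 * m := by exact_mod_cast hm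
    have h4 := hcong 1
    rw [hm', heig.1] at h4
    push_cast at h4
    have h5 : (3 : ZMod 3) = 0 := by decide
    rw [h5, zero_mul] at h4
    exact absurd h4 (by decide)
  have hne : mIdeal f₀ ≠ ⊤ := fun htop => h1 (htop ▸ Submodule.mem_top)
  obtain ⟨𝔪₁, h𝔪₁max, h𝔪₁le⟩ := Ideal.exists_le_maximal _ hne
  obtain ⟨g, χ, hg0, hχ, hker⟩ := exists_eigen hint 𝔪₁
  obtain ⟨χ', Q, hQmax, hχ', hQ⟩ := exists_lying hint χ 𝔪₁ hker
  obtain ⟨f, hf, hfℓ⟩ := normalize g hg0 χ hχ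
  refine ⟨f, hf, Q, hQmax, ?_, ?_⟩
  · have h3 : ((3 : ℤ) : heckeAlgebra N 2 (∅ : Set ℕ)) ∈ mIdeal f₀ := by
      intro n
      refine ⟨af n, ?_⟩
      rw [intCast_apply', qc_smul, ← haf n]
      push_cast
      ring
    have h4 := hQ _ (h𝔪₁le h3)
    rw [map_intCast] at h4
    exact_mod_cast h4
  · intro ℓ hℓ hℓN
    refine ⟨χ' (heckeAlgebra.T hℓ hℓN (Set.notMem_empty ℓ)), ?_, ?_⟩
    · rw [hχ', hfℓ]
    · have hmem : heckeAlgebra.T hℓ hℓN (Set.notMem_empty ℓ)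
          - ((a ℓ : ℤ) : heckeAlgebra N 2 (∅ : Set ℕ)) ∈ mIdeal f₀ := by
        intro n
        have hz : ∃ m : ℤ, af (n * ℓ) + (if ℓ ∣ n then (ℓ : ℤ) * af (n / ℓ) else 0)
            - a ℓ * af n = 3 * m := by
          have hE := heig.2 ℓ hℓ n
          simp only [if_neg hℓN] at hE
          have hE' := congrArg (Int.cast : ℤ → ZMod 3) hE
          apply (ZMod.intCast_zmod_eq_zero_iff_dvd _ 3).mp
          by_cases hd : ℓ ∣ n
          · simp only [if_pos hd] at hE' ⊢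
            push_cast at hE' ⊢
            rw [hcong, hcong, hcong, ← chi_mod3 ℓ, mul_comm n ℓ]
            linear_combination hE'
          · simp only [if_neg hd] at hE' ⊢
            push_cast at hE' ⊢
            rw [hcong, hcong, mul_comm n ℓ]
            linear_combination hE'
        obtain ⟨m, hm⟩ := hz
        refine ⟨m, ?_⟩
        have h5 : (heckeAlgebra.T hℓ hℓN (Set.notMem_empty ℓ)
            - ((a ℓ : ℤ) : heckeAlgebra N 2 (∅ : Set ℕ))).1 f₀
            = CuspForm.heckeTLin 2 hℓ hℓN f₀ + (-(a ℓ : ℂ)) • f₀ := by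
          have h6 : (heckeAlgebra.T hℓ hℓN (Set.notMem_empty ℓ)
            - ((a ℓ : ℤ) : heckeAlgebra N 2 (∅ : Set ℕ))).1 f₀
            = CuspForm.heckeTLin 2 hℓ hℓN f₀
              - ((a ℓ : ℤ) : heckeAlgebra N 2 (∅ : Set ℕ)).1 f₀ := rfl
          rw [h6, intCast_apply', neg_smul, sub_eq_add_neg]
        rw [h5, qc_add, qc_smul, qc_heckeT, ← hm]
        simp only [← haf]
        split_ifs <;> push_cast <;> ring
      have h4 := hQ _ (h𝔪₁le hmem)
      rw [map_sub, map_intCast] at h4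
      exact h4

end Fermat.Agent.S49
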