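import Fermat.Statements.S02

set_option autoImplicit false
open FreyPackage

namespace Fermat.Agent.S02

theorem core (a b c : ℤ) (ha : a ≠ 0) (hb : b ≠ 0) (hc : c ≠ 0) (p : ℕ) (pp : p.Prime)
    (hp5 : 5 ≤ p) (H : a ^ p + b ^ p = c ^ p) (hab : gcd a b = 1) (hb2 : (2 : ℤ) ∣ b) :
    Nonempty FreyPackage := by
  have hodd : Odd p := pp.odd_of_ne_two (by omega)
  have ha_odd : ¬ (2 : ℤ) ∣ a := by
    intro h
    have h2 : (2 : ℤ) ∣ gcd a b := dvd_gcd h hb2
    rw [hab] at h2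
    norm_num at h2
  have hb2' : ((b : ℤ) : ZMod 2) = 0 := (ZMod.intCast_zmod_eq_zero_iff_dvd b 2).2 hb2
  have h4 : a % 4 = 1 ∨ a % 4 = 3 := by omega
  rcases h4 with h4 | h4
  · refine ⟨{ a := -a, b := -b, c := -c, ha0 := neg_ne_zero.mpr ha, hb0 := neg_ne_zero.mpr hb,
              hc0 := neg_ne_zero.mpr hc, p := p, pp := pp, hp5 := hp5, hFLT := ?_, hgcdab := ?_,
              ha4 := ?_, hb2 := ?_ }⟩
    · rw [hodd.neg_pow, hodd.neg_pow, hodd.neg_pow, ← H]; ring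
    · rw [gcd_neg, neg_gcd]; exact hab
    · have h3 : (((-a : ℤ)) : ZMod 4) = ((3 : ℤ) : ZMod 4) :=
        (ZMod.intCast_eq_intCast_iff (-a) 3 4).2 (by unfold Int.ModEq; omega)
      simpa using h3
    · simpa using hb2'
  · refine ⟨{ a := a, b := b, c := c, ha0 := ha, hb0 := hb,
              hc0 := hc, p := p, pp := pp, hp5 := hp5, hFLT := H, hgcdab := hab,
              ha4 := ?_, hb2 := hb2' }⟩
    have h3 : ((a : ℤ) : ZMod 4) = ((3 : ℤ) : ZMod 4) :=
      (ZMod.intCast_eq_intCast_iff a 3 4).2 (by unfold Int.ModEq; omega)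
    simpa using h3

theorem coprime_case (a b c : ℤ) (ha : a ≠ 0) (hb : b ≠ 0) (hc : c ≠ 0) (p : ℕ) (pp : p.Prime)
    (hp5 : 5 ≤ p) (H : a ^ p + b ^ p = c ^ p) (hab : gcd a b = 1) :
    Nonempty FreyPackage := by
  have hodd : Odd p := pp.odd_of_ne_two (by omega)
  have hp0 : p ≠ 0 := by omega
  by_cases hb2 : (2 : ℤ) ∣ b
  · exact core a b c ha hb hc p pp hp5 H hab hb2
  by_cases ha2 : (2 : ℤ) ∣ a
  · exact core b a c hb ha hc p pp hp5 (by rw [add_comm]; exact H) (by rw [gcd_comm]; exact hab) ha2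
  -- both odd, so c is even
  have hc2 : (2 : ℤ) ∣ c := by
    have h1 : Odd a := Int.not_even_iff_odd.mp (fun h => ha2 (even_iff_two_dvd.mp h))
    have h2 : Odd b := Int.not_even_iff_odd.mp (fun h => hb2 (even_iff_two_dvd.mp h))
    have h3 : Even (c ^ p) := by rw [← H]; exact (h1.pow).add_odd (h2.pow)
    have h4 : Even c := (Int.even_pow.mp h3).1
    exact even_iff_two_dvd.mp h4
  have hac : gcd a c = 1 := by
    rw [← FreyPackage.gcdab_eq_gcdac (Nat.pos_of_ne_zero hp0) H]; exact hab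
  refine core a (-c) (-b) ha (neg_ne_zero.mpr hc) (neg_ne_zero.mpr hb) p pp hp5 ?_ ?_ ?_
  · rw [hodd.neg_pow, hodd.neg_pow, ← H]; ring
  · rw [gcd_neg]; exact hac
  · exact (dvd_neg).mpr hc2

theorem result (a b c : ℤ) (ha : a ≠ 0) (hb : b ≠ 0) (hc : c ≠ 0) (p : ℕ) (pp : p.Prime) (hp5 : 5 ≤ p) (H : a ^ p + b ^ p = c ^ p) : Nonempty FreyPackage := by
  have hp0 : p ≠ 0 := by omega
  -- divide by the gcd
  set d : ℤ := gcd a b with hd
  have hd0 : d ≠ 0 := by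
    intro h
    rw [hd] at h
    exact ha ((gcd_eq_zero_iff a b).mp h).1
  obtain ⟨a', ha'⟩ : d ∣ a := gcd_dvd_left a b
  obtain ⟨b', hb'⟩ : d ∣ b := gcd_dvd_right a b
  have hdc : d ∣ c := by
    rw [← Int.pow_dvd_pow_iff hp0, ← H]
    exact dvd_add (pow_dvd_pow_of_dvd (gcd_dvd_left a b) p) (pow_dvd_pow_of_dvd (gcd_dvd_right a b) p)
  obtain ⟨c', hc'⟩ := hdc
  have ha'0 : a' ≠ 0 := by rintro rfl; exact ha (by rw [ha']; ring)
  have hb'0 : b' ≠ 0 := by rintro rfl; exact hb (by rw [hb']; ring)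
  have hc'0 : c' ≠ 0 := by rintro rfl; exact hc (by rw [hc']; ring)
  have H' : a' ^ p + b' ^ p = c' ^ p := by
    have h1 : d ^ p * (a' ^ p + b' ^ p) = d ^ p * c' ^ p := by
      rw [mul_add, ← mul_pow, ← mul_pow, ← mul_pow, ← ha', ← hb', ← hc']; exact H
    exact mul_left_cancel₀ (pow_ne_zero p hd0) h1
  have hab' : gcd a' b' = 1 := by
    have h1 : gcd (d * a') (d * b') = normalize d * gcd a' b' := gcd_mul_left d a' b'
    rw [← ha', ← hb', ← hd] at h1
    have h2 : normalize d = d := by rw [hd]; exact normalize_gcd a b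
    rw [h2] at h1
    have h3 : d * 1 = d * gcd a' b' := by rw [mul_one]; exact h1
    exact (mul_left_cancel₀ hd0 h3).symm
  exact coprime_case a' b' c' ha'0 hb'0 hc'0 p pp hp5 H' hab'

end Fermat.Agent.S02
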