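-- S05: the mod-p Galois representation of the Frey curve is unramified at every prime q ≠ 2, p.
import Fermat.Statements.S05
import Fermat.Agent.Lib.F5_Frey
import Fermat.Agent.Lib.F5_RVal
import Fermat.Agent.Lib.F5_Final

set_option autoImplicit false
open WeierstrassCurve WeierstrassCurve.Affine WeierstrassCurve.Affine.Point
open CuspForm ModularFormClass UpperHalfPlane
open FreyPackage

namespace Fermat.Agent.S05

open Fermat.Agent.F5

/-- if the three root differences of a recentring of `T (T - a) (T + b)` are units, then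
`a`, `b`, `a + b` are units (all of them being integral) -/
theorem s05_good_units {K : Type*} [Field K] {A : ValuationSubring K} (v : RVal A)
    {a b e₁ e₂ e₃ : K} (hr : IsRecentring a b e₁ e₂ e₃)
    (ha : a ≠ 0) (hb : b ≠ 0) (hab : a + b ≠ 0)
    (ha0 : 0 ≤ v.w a) (hb0 : 0 ≤ v.w b) (hab0 : 0 ≤ v.w (a + b))
    (h13 : e₁ - e₃ ≠ 0) (h21 : e₂ - e₁ ≠ 0) (h23 : e₂ - e₃ ≠ 0)
    (w13 : v.w (e₁ - e₃) = 0) (w21 : v.w (e₂ - e₁) = 0) (w23 : v.w (e₂ - e₃) = 0) :
    v.w a = 0 ∧ v.w b = 0 ∧ v.w (a + b) = 0 := by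
  have hdisc : ((e₁ - e₃) * (e₂ - e₁) * (e₂ - e₃)) ^ 2 = (a * b * (a + b)) ^ 2 := by
    have h0 : ((e₁ - e₃) * (e₂ - e₁) * (e₂ - e₃)) ^ 2
        = (e₁ + e₂ + e₃) ^ 2 * (e₁ * e₂ + e₁ * e₃ + e₂ * e₃) ^ 2
          - 4 * (e₁ * e₂ + e₁ * e₃ + e₂ * e₃) ^ 3 - 4 * (e₁ + e₂ + e₃) ^ 3 * (e₁ * e₂ * e₃)
          + 18 * (e₁ + e₂ + e₃) * (e₁ * e₂ + e₁ * e₃ + e₂ * e₃) * (e₁ * e₂ * e₃)
          - 27 * (e₁ * e₂ * e₃) ^ 2 := by ring
    rw [h0, hr.sum, hr.pair, hr.prod]
    ring
  have hL : v.w (((e₁ - e₃) * (e₂ - e₁) * (e₂ - e₃)) ^ 2) = 0 := by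
    rw [v.w_sq (mul_ne_zero (mul_ne_zero h13 h21) h23),
      v.w_mul _ _ (mul_ne_zero h13 h21) h23, v.w_mul _ _ h13 h21, w13, w21, w23]
    ring
  have hR : v.w ((a * b * (a + b)) ^ 2) = 2 * (v.w a + v.w b + v.w (a + b)) := by
    rw [v.w_sq (mul_ne_zero (mul_ne_zero ha hb) hab),
      v.w_mul _ _ (mul_ne_zero ha hb) hab, v.w_mul _ _ ha hb]
  rw [hdisc, hR] at hL
  refine ⟨by linarith, by linarith, by linarith⟩

theorem result (P : FreyPackage) {q : ℕ} (hq : q.Prime) (hq2 : q ≠ 2) (hqp : q ≠ P.p) : P.GaloisRepUnramifiedAt q := by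
  classical
  apply frey_unramified_of_points
  intro A hA σ hσ Pt hPt
  obtain ⟨v, hvq, hvu⟩ := exists_rval A hq hA
  have hσm : ∀ x ∈ A, σ x - x ∈ A.nonunits := fun x hx => (inertia_mem A σ hσ x hx).2
  have hσw : ∀ z, v.Wge z 0 →
      v.Wgt ((σ : AlgebraicClosure ℚ →+* AlgebraicClosure ℚ) z - z) 0 :=
    fun z hz => RVal.mem_nonunits_iff_wgt.mp (hσm z (RVal.mem_iff_wge.mpr hz))
  cases Pt with
  | zero => rfl
  | some x y hxy =>
    have hP : P.p • Point.some x y hxy = 0 := by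
      rw [← natCast_zsmul]; exact hPt
    have hmap := Point.map_some (W' := P.freyCurve) (f := σ.toAlgHom) hxy
    rw [hmap]
    have hxy' : (P.freyCurve⁄(AlgebraicClosure ℚ)).Nonsingular
        ((σ : AlgebraicClosure ℚ →+* AlgebraicClosure ℚ) x)
        ((σ : AlgebraicClosure ℚ →+* AlgebraicClosure ℚ) y) :=
      (WeierstrassCurve.Affine.baseChange_nonsingular (W := P.freyCurve) (f := σ.toAlgHom)
        σ.injective x y).mpr hxy
    have hP' : P.p • Point.some _ _ hxy' = 0 := by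
      have h1 := congrArg (Point.map (W' := P.freyCurve) σ.toAlgHom) hP
      rw [map_nsmul, hmap, _root_.map_zero] at h1
      exact h1
    have hpw : v.w ((P.p : ℕ) : AlgebraicClosure ℚ) = 0 := by
      have h1 := hvu (P.p : ℤ) (by
        intro h
        have h' : q ∣ P.p := Int.natCast_dvd_natCast.mp h
        exact hqp ((Nat.prime_dvd_prime_iff_eq hq P.pp).mp h'))
      simpa using h1
    have hp2 : P.p ≠ 2 := by have := P.hp5; omega
    have key : (σ : AlgebraicClosure ℚ →+* AlgebraicClosure ℚ) x = x ∧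
        (σ : AlgebraicClosure ℚ →+* AlgebraicClosure ℚ) y = y := by
      obtain ⟨e₁, e₂, e₃, ω, hloc, hcase⟩ := frey_arith P hq hq2 v hvq hvu
      rcases hcase with ⟨hg1, hg2⟩ | ⟨d, hd0, hdpos, hDd⟩
      · -- good reduction
        have ha0 : (P.a : AlgebraicClosure ℚ) ^ P.p ≠ 0 :=
          pow_ne_zero _ (Int.cast_ne_zero.mpr P.ha0)
        have hb0 : (P.b : AlgebraicClosure ℚ) ^ P.p ≠ 0 :=
          pow_ne_zero _ (Int.cast_ne_zero.mpr P.hb0)
        have hC : (P.a : AlgebraicClosure ℚ) ^ P.p + (P.b : AlgebraicClosure ℚ) ^ P.p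
            = (P.c : AlgebraicClosure ℚ) ^ P.p := by
          exact_mod_cast congrArg (Int.cast : ℤ → AlgebraicClosure ℚ) P.hFLT
        have hc0 : (P.a : AlgebraicClosure ℚ) ^ P.p + (P.b : AlgebraicClosure ℚ) ^ P.p ≠ 0 := by
          rw [hC]; exact pow_ne_zero _ (Int.cast_ne_zero.mpr P.hc0)
        have hwa : 0 ≤ v.w ((P.a : AlgebraicClosure ℚ) ^ P.p) := by
          have := (frey_wge_int v (P.a ^ P.p)).le (by push_cast; exact ha0)
          simpa using this
        have hwb : 0 ≤ v.w ((P.b : AlgebraicClosure ℚ) ^ P.p) := by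
          have := (frey_wge_int v (P.b ^ P.p)).le (by push_cast; exact hb0)
          simpa using this
        have hwc : 0 ≤ v.w ((P.a : AlgebraicClosure ℚ) ^ P.p + (P.b : AlgebraicClosure ℚ) ^ P.p) := by
          have := (frey_wge_int v (P.a ^ P.p + P.b ^ P.p)).le (by push_cast; exact hc0)
          simpa using this
        obtain ⟨u1, u2, u3⟩ := s05_good_units v hloc.rcn ha0 hb0 hc0 hwa hwb hwc
          hloc.U_ne hloc.D_ne hloc.DU_ne hloc.U_unit hg1 hg2
        exact final_good (frey_isFreyW P) v ha0 u1 hb0 u2 hc0 u3 hloc.two_unit P.pp hpw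
          (σ : AlgebraicClosure ℚ →+* AlgebraicClosure ℚ) hσw hxy hxy' hP hP'
      · -- multiplicative reduction
        have hD : 0 < v.w ((e₂ : AlgebraicClosure ℚ) - e₁) := by
          rw [hDd]
          have : (0 : ℝ) < P.p := by exact_mod_cast P.hppos
          positivity
        exact final_node (frey_isFreyW P) v hloc.rcn.sum hloc.rcn.pair hloc.rcn.prod
          (hloc.nodeData hD) (frey_wge_int v e₁) (frey_wge_int v e₂) (frey_wge_int v e₃)
          (Int.cast_ne_zero.mpr hd0) hDd P.pp hp2 hpw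
          (σ : AlgebraicClosure ℚ →+* AlgebraicClosure ℚ) hσw (map_intCast _ e₁) (map_intCast _ d)
          (hloc.sigma_ω hσm) hxy hxy' hP hP'
    simp only [Point.some.injEq]
    exact key

end Fermat.Agent.S05
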