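import Fermat.Statements.S07
import Fermat.Prelude.Thm_ModularForm_sturm_bound_Gamma0

set_option autoImplicit false
open WeierstrassCurve WeierstrassCurve.Affine WeierstrassCurve.Affine.Point
open CuspForm ModularFormClass UpperHalfPlane
open ModularForm

namespace Fermat.Agent.S07

open scoped MatrixGroups

theorem gamma0_two_rel (g h : SL(2, ℤ))
    (h0 : ((g 0 0 : ℤ) : ZMod 2) = ((h 0 0 : ℤ) : ZMod 2))
    (h1 : ((g 1 0 : ℤ) : ZMod 2) = ((h 1 0 : ℤ) : ZMod 2)) :
    g⁻¹ * h ∈ CongruenceSubgroup.Gamma0 2 := by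
  rw [CongruenceSubgroup.Gamma0_mem]
  have : (g⁻¹ * h) 1 0 = -(g 1 0) * h 0 0 + g 0 0 * h 1 0 := by
    rw [Matrix.SpecialLinearGroup.coe_mul, Matrix.SpecialLinearGroup.coe_inv,
      Matrix.mul_apply, Fin.sum_univ_two, Matrix.adjugate_fin_two]
    simp
  rw [this]
  push_cast
  rw [h0, h1]
  ring

theorem gamma0_two_index_le : (CongruenceSubgroup.Gamma0 2).index ≤ 4 := by
  classical
  let φ : SL(2, ℤ) ⧸ (CongruenceSubgroup.Gamma0 2) → ZMod 2 × ZMod 2 :=
    fun q => (((q.out 0 0 : ℤ) : ZMod 2), ((q.out 1 0 : ℤ) : ZMod 2))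
  have hφ : Function.Injective φ := by
    intro q q' hqq'
    have h0 : ((q.out 0 0 : ℤ) : ZMod 2) = ((q'.out 0 0 : ℤ) : ZMod 2) := congrArg Prod.fst hqq'
    have h1 : ((q.out 1 0 : ℤ) : ZMod 2) = ((q'.out 1 0 : ℤ) : ZMod 2) := congrArg Prod.snd hqq'
    have := gamma0_two_rel _ _ h0 h1
    rw [← QuotientGroup.out_eq' q, ← QuotientGroup.out_eq' q']
    exact QuotientGroup.eq.mpr this
  have := Nat.card_le_card_of_injective φ hφ
  simpa [Subgroup.index] using this

theorem result (f : CuspForm (CongruenceSubgroup.Gamma0 2) 2) : f = 0 := by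
  have h1 : (1 : ℝ) ∈ (CongruenceSubgroup.Gamma0 2 : Subgroup (GL (Fin 2) ℝ)).strictPeriods := by
    simp [CongruenceSubgroup.strictPeriods_Gamma0]
  have hF : (f : ModularForm (CongruenceSubgroup.Gamma0 2) 2) = 0 := by
    apply ModularForm.sturm_bound_Gamma0 2
    intro n hn
    have hidx := gamma0_two_index_le
    have hn0 : n = 0 := by
      have : ((2 : ℤ) * ((CongruenceSubgroup.Gamma0 2).index : ℤ)).toNat / 12 = 0 := by
        apply Nat.div_eq_of_lt
        omega
      omega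
    subst hn0
    exact CuspFormClass.qExpansion_coeff_zero f one_pos h1
  ext z
  have := congrArg (fun F : ModularForm (CongruenceSubgroup.Gamma0 2) 2 => F z) hF
  simpa using this

end Fermat.Agent.S07
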