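import Fermat.Statements.S10
import Fermat.Agent.Lib.K_CaseI
import Fermat.Agent.Lib.K_CaseII
import Fermat.Agent.Lib.K_PID
import Fermat.Agent.Lib.K_KL5
import Fermat.Agent.Lib.K_KL7
import Fermat.Agent.Lib.K_KL13

set_option autoImplicit false
open WeierstrassCurve WeierstrassCurve.Affine WeierstrassCurve.Affine.Point
open CuspForm ModularFormClass UpperHalfPlane
open FreyPackage

namespace Fermat.Agent.S10

open Fermat.Agent.Lib.Kummer in
/-- Fermat's Last Theorem for exponent `5`. -/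
theorem flt_five (a b c : ℤ) (ha : a ≠ 0) (hb : b ≠ 0) (hc : c ≠ 0) :
    a ^ 5 + b ^ 5 ≠ c ^ 5 := by
  have : Fact (Nat.Prime 5) := ⟨by norm_num⟩
  have : IsCyclotomicExtension {5} ℚ (CyclotomicField 5 ℚ) :=
    CyclotomicField.isCyclotomicExtension 5 ℚ
  have : IsPrincipalIdealRing (NumberField.RingOfIntegers (CyclotomicField 5 ℚ)) :=
    IsCyclotomicExtension.Rat.five_pid (CyclotomicField 5 ℚ)
  have hII := caseII (p := 5) (K := CyclotomicField 5 ℚ) (by norm_num)
    (fun u h => kummer_lemma_five u h)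
  exact flt_five_of_caseII (fun a b c hab hc h => hII a b c hab hc (by simpa using h))
    a b c ha hb hc

open Fermat.Agent.Lib.Kummer in
/-- Fermat's Last Theorem for exponent `7`. -/
theorem flt_seven (a b c : ℤ) (ha : a ≠ 0) (hb : b ≠ 0) (hc : c ≠ 0) :
    a ^ 7 + b ^ 7 ≠ c ^ 7 := by
  have : Fact (Nat.Prime 7) := ⟨by norm_num⟩
  have : IsCyclotomicExtension {7} ℚ (CyclotomicField 7 ℚ) :=
    CyclotomicField.isCyclotomicExtension 7 ℚ
  have : IsPrincipalIdealRing (NumberField.RingOfIntegers (CyclotomicField 7 ℚ)) :=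
    pid_seven (CyclotomicField 7 ℚ)
  have hII := caseII (p := 7) (K := CyclotomicField 7 ℚ) (by norm_num)
    (fun u h => kummer_lemma_seven u h)
  exact flt_seven_of_caseII (fun a b c hab hc h => hII a b c hab hc (by simpa using h))
    a b c ha hb hc

open Fermat.Agent.Lib.Kummer in
/-- Fermat's Last Theorem for exponent `13`. -/
theorem flt_thirteen (a b c : ℤ) (ha : a ≠ 0) (hb : b ≠ 0) (hc : c ≠ 0) :
    a ^ 13 + b ^ 13 ≠ c ^ 13 := by
  have : Fact (Nat.Prime 13) := ⟨by norm_num⟩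
  have : IsCyclotomicExtension {13} ℚ (CyclotomicField 13 ℚ) :=
    CyclotomicField.isCyclotomicExtension 13 ℚ
  have : IsPrincipalIdealRing (NumberField.RingOfIntegers (CyclotomicField 13 ℚ)) :=
    pid_thirteen (CyclotomicField 13 ℚ)
  have hII := caseII (p := 13) (K := CyclotomicField 13 ℚ) (by norm_num)
    (fun u h => kummer_lemma_thirteen u h)
  exact flt_thirteen_of_caseII (fun a b c hab hc h => hII a b c hab hc (by simpa using h))
    a b c ha hb hc

theorem result (P : FreyPackage) (hp : P.p = 5 ∨ P.p = 7 ∨ P.p = 13) : ¬ HasGaloisStableCofixedLine (K := AlgebraicClosure ℚ) ℚ P.freyCurve P.p := by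
  exfalso
  have h := P.hFLT
  rcases hp with hp | hp | hp
  · rw [hp] at h
    exact flt_five P.a P.b P.c P.ha0 P.hb0 P.hc0 h
  · rw [hp] at h
    exact flt_seven P.a P.b P.c P.ha0 P.hb0 P.hc0 h
  · rw [hp] at h
    exact flt_thirteen P.a P.b P.c P.ha0 P.hb0 P.hc0 h

end Fermat.Agent.S10
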