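import Fermat.Statements.S11
import Fermat.Agent.Lib.K_CaseI
import Fermat.Agent.Lib.K_CaseII
import Fermat.Agent.Lib.K_PID
import Fermat.Agent.Lib.K_KL11

set_option autoImplicit false
open WeierstrassCurve WeierstrassCurve.Affine WeierstrassCurve.Affine.Point
open CuspForm ModularFormClass UpperHalfPlane
open FreyPackage

namespace Fermat.Agent.S11

open Fermat.Agent.Lib.Kummer in
/-- Fermat's Last Theorem for exponent `11` (Kummer: `ℚ(ζ₁₁)` has class number one and
satisfies Kummer's lemma; first case by Sophie Germain). -/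
theorem flt_eleven (a b c : ℤ) (ha : a ≠ 0) (hb : b ≠ 0) (hc : c ≠ 0) :
    a ^ 11 + b ^ 11 ≠ c ^ 11 := by
  have : Fact (Nat.Prime 11) := ⟨by norm_num⟩
  have : IsCyclotomicExtension {11} ℚ (CyclotomicField 11 ℚ) :=
    CyclotomicField.isCyclotomicExtension 11 ℚ
  have : IsPrincipalIdealRing (NumberField.RingOfIntegers (CyclotomicField 11 ℚ)) :=
    pid_eleven (CyclotomicField 11 ℚ)
  have hII := caseII (p := 11) (K := CyclotomicField 11 ℚ) (by norm_num)
    (fun u h => kummer_lemma_eleven u h)
  exact flt_eleven_of_caseII (fun a b c hab hc h => hII a b c hab hc (by simpa using h))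
    a b c ha hb hc

theorem result (P : FreyPackage) (hp : P.p = 11) : ¬ HasGaloisStableCofixedLine (K := AlgebraicClosure ℚ) ℚ P.freyCurve P.p := by
  exfalso
  have h := P.hFLT
  rw [hp] at h
  exact flt_eleven P.a P.b P.c P.ha0 P.hb0 P.hc0 h

end Fermat.Agent.S11
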