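-- Statement S13 (row 12): if the mod-p representation of the Frey curve is reducible, it has a
-- Galois-stable cofixed line.  Assembly (lead) of the team's S13 library:
--   S13_Asm (group theory of the assembly), GM_Main (Minkowski: every proper normal open subgroup
--   misses some inertia element), S05 (unramified outside 2p), N2_Main (the prime 2: unipotent
--   inertia, no rational p-torsion), LP_Local / LP_SSPlug (the prime p), TW_Frey (the p-torsion
--   polynomial of the Frey curve: cardinality and existence).
import Fermat.Statements.S13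
import Fermat.Agent.S05
import Fermat.Agent.Lib.S13_Asm
import Fermat.Agent.Lib.GM_Main
import Fermat.Agent.Lib.LP_Local
import Fermat.Agent.Lib.LP_SSPlug
import Fermat.Agent.Lib.TW_Frey
import Fermat.Agent.Lib.N2_Main

set_option autoImplicit false
open WeierstrassCurve WeierstrassCurve.Affine WeierstrassCurve.Affine.Point
open CuspForm ModularFormClass UpperHalfPlane
open FreyPackage

namespace Fermat.Agent.S13

theorem result (P : FreyPackage) (hred : ¬ GaloisRepIsIrreducible (K := AlgebraicClosure ℚ) ℚ P.freyCurve P.p) : HasGaloisStableCofixedLine (K := AlgebraicClosure ℚ) ℚ P.freyCurve P.p := by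
  obtain ⟨hfin, hcard⟩ := Fermat.Agent.TW.frey_tors_card P
  exact Fermat.Agent.A13.a13_main P hfin hcard (Fermat.Agent.TW.frey_tors_exists P)
    (fun U hU S hS hne => @Fermat.Agent.GM.gm_ramified U hU S hS hne)
    (fun q hq h2 hp => Fermat.Agent.S05.result P hq h2 hp)
    (fun A hA σ hσ Q hQ => Fermat.Agent.N2.n2_unip P A hA σ hσ Q hQ)
    (fun Q hQ hfix => Fermat.Agent.N2.n2_norat P Q hQ hfix)
    (Fermat.Agent.LP.lp_local P)
    (fun A hA N hNV hNG hN0 hN1 =>
      Fermat.Agent.LP.lp_ss_of_phi P (Fermat.Agent.TW.frey_phi P) hfin hcard A hA N hNV hNG hN0 hN1)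
    hred

end Fermat.Agent.S13
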