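-- Statement S14: Ext-vanishing (Frey/Serre route input), via the "CFT-lite" blueprint
-- (Lib/C14_*.lean): translation to a cyclic unramified extension L/ℚ(ζ_p) of degree p (leaf T),
-- and its non-existence (CORE) from the leaves Z (Dirichlet density), FI (first inequality),
-- AL (reciprocity by cyclotomic crossing; uses RC = boundedness of ray class L-functions),
-- ST (Stickelberger for Jacobi sums) and FROB (Frobenius elements).
import Fermat.Statements.S14
import Fermat.Agent.Lib.C14_Core
import Fermat.Agent.Lib.C14_T_Field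
import Fermat.Agent.Lib.C14_ST
import Fermat.Agent.Lib.C14_FI
import Fermat.Agent.Lib.C14_Z_NotSplit
import Fermat.Agent.Lib.C14_FrobGal
import Fermat.Agent.Lib.C14_AL

set_option autoImplicit false
open ExtCitation

namespace Fermat.Agent.S14

theorem result {p : ℕ} [Fact p.Prime] (h3 : 3 ≤ p) :
    ExtCitation.ExtVanishingCts p :=
  C14.T_translate p h3 (fun K L _ _ _ _ _ _ _ _ hdeg hunr hact =>
    C14.core_of p h3 K L hdeg hact
      (fun S hS => C14.Z_exists_not_split K L (by rw [hdeg]; omega) S hS)
      (C14.FI_char p h3 K L hdeg hunr)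
      (fun hnonab χ hχp hχs hχP hχnt φ α hα =>
        C14.AL_recip p h3 K L hdeg hunr hnonab χ hχp hχs hχP hχnt φ α hα)
      (fun v hv hvp => C14.ST_jacobi p h3 K v hv hvp)
      (fun t ht ζ hζ => C14.sig_spec p K t ht ζ hζ)
      (fun hab v hv => C14.frob_eq_one_iff K L hab v hv)
      (fun hab τ τK hτ v hv x => C14.frob_galPrime K L hab τ τK hτ v hv x))

end Fermat.Agent.S14
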