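-- S16 (row 15): the index of the Eisenstein ideal in the integral Hecke algebra of weight 2 and
-- prime level p equals the numerator of (p - 1)/12.
-- Proof: `e16_s16` (duality between the Hecke lattice algebra and the lattice of integral cusp
-- forms, Lib/E16_Main) reduces the statement to
--   * the lower bound `e16m_LB` (Lib/E16_MStar, rho-route: the Shimura character of Γ₀(p) lifts,
--     by the Manin-symbol presentation and Eichler-Shimura S20/S21, to an integral parabolic
--     cocycle which is Eisenstein modulo n), and
--   * the upper bound `e16_ub` (Lib/E16_UBMain: a cusp form congruent to the Eisenstein series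
--     modulo M forces M | n, by trace identities, norms to level one and Sturm's bound).
import Fermat.Statements.S16
import Fermat.Agent.Lib.E16_MStar
import Fermat.Agent.Lib.E16_UBMain

set_option autoImplicit false
open ModularCurve CuspForm
open ModularCurve

namespace Fermat.Agent.S16

theorem result
    (p : ℕ) [Fact p.Prime] :
    Nat.card (↥(heckeLatticeAlgebra p ∅) ⧸
        Ideal.map ((latticeRestrictHom p ∅).toRingHom.comp (heckeEvalForms p 2))
          (eisensteinIdeal p)) =
      eisensteinNumerator p := by
  exact Fermat.Agent.E16.e16_s16 p (Fermat.Agent.E16.e16m_LB p)
    (fun M hM h => Fermat.Agent.E16.e16_ub p M hM h)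

end Fermat.Agent.S16
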