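import Fermat.Statements.S24
import Fermat.Agent.Lib.FF_Main
import Fermat.Agent.Lib.MC_Main

set_option autoImplicit false

namespace Fermat.Agent.S24

open AlgebraicCurve KaehlerDifferential IntermediateField ModularCurve
open Fermat.Agent.FF Fermat.Agent.MC

theorem orbitCount_inv {I : Type} (ρ : Equiv.Perm I) : orbitCount ρ⁻¹ = orbitCount ρ := by
  unfold orbitCount
  have h : Equiv.Perm.SameCycle.setoid ρ⁻¹ = Equiv.Perm.SameCycle.setoid ρ := by
    ext a b
    exact Equiv.Perm.sameCycle_inv
  rw [h]

theorem result (N : ℕ) [NeZero N]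
    [AlgebraicCurve.HasCanonicalDivisor (K := AlgebraicClosure ℚ) (F := ↥(ModularCurve.modularFunctionFieldBar N))] :
    (AlgebraicCurve.genus (AlgebraicClosure ℚ) ↥(ModularCurve.modularFunctionFieldBar N) : ℚ)
      = ModularCurve.genusFormula N := by
  classical
  obtain ⟨L1728, h1728⟩ := localData_1728 N
  obtain ⟨L0, h0⟩ := localData_0 N
  obtain ⟨Linf, hinf⟩ := localData_inf N
  choose Lg hLg using localData_generic N
  have hne : (0 : Kb) ≠ 1728 := by norm_num
  let L : ∀ a : Kb, LocalData Kb (FN N) (jF N) a (PN N) := fun a =>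
    if ha0 : a = 0 then ha0 ▸ L0 else if ha1 : a = 1728 then ha1 ▸ L1728 else Lg a ha0 ha1
  have hL0 : L 0 = L0 := by simp [L]
  have hL1 : L 1728 = L1728 := by
    have : (1728 : Kb) ≠ 0 := hne.symm
    simp [L, this]
  have hLgen : ∀ a : Kb, a ∉ ({0, 1728} : Finset Kb) → (L a).e = 1 := by
    intro a ha
    simp only [Finset.mem_insert, Finset.mem_singleton, not_or] at ha
    simp only [L, dif_neg ha.1, dif_neg ha.2]
    exact hLg a ha.1 ha.2
  have : Nonempty (PN N) := ⟨QuotientGroup.mk 1⟩
  have hex : ∃ ω : Ω[FN N⁄Kb], ω ≠ 0 := exists_differential_ne_zero (jF N) 0 (PN N) L0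
  have := finiteDimensional_FN N
  have hdeg := degree_canonical (jF N) (jF_transcendental N) (PN N) (finrank_FN N)
    {0, 1728} L hLgen Linf hex.choose hex.choose_spec
    (canonicalDivisorOf hex.choose_spec) (fun v => canonicalDivisorOf_apply _ v)
  rw [Finset.sum_pair hne, hL0, hL1] at hdeg
  have e0 : L0.orbits = orbitCount (uP N) := by
    unfold LocalData.orbits
    rcases h0 with h | h <;> rw [h]
    exact orbitCount_inv _
  have e1 : L1728.orbits = orbitCount (sP N) := by
    unfold LocalData.orbits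
    rcases h1728 with h | h <;> rw [h]
    exact orbitCount_inv _
  have e2 : Linf.orbits = orbitCount (tP N) := by
    unfold LocalData.orbits
    rcases hinf with h | h <;> rw [h]
    exact orbitCount_inv _
  rw [e0, e1, e2] at hdeg
  obtain ⟨g, hg⟩ := euler_PN N
  have hS := orbitCount_sP N
  have hU := orbitCount_uP N
  have hT := orbitCount_tP N
  have hcard := card_PN N
  have hgenus : AlgebraicCurve.genus (AlgebraicClosure ℚ) ↥(ModularCurve.modularFunctionFieldBar N) = g := by
    unfold AlgebraicCurve.genus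
    rw [dif_pos hex, hdeg]
    have : ((Fintype.card (PN N) : ℤ) - (orbitCount (uP N) : ℤ) + ((Fintype.card (PN N) : ℤ) - (orbitCount (sP N) : ℤ)) - (Fintype.card (PN N) : ℤ) - (orbitCount (tP N) : ℤ) + 2) = 2 * (g : ℤ) := by
      linarith
    rw [this]
    omega
  rw [hgenus]
  unfold ModularCurve.genusFormula
  have hS' : (2 : ℚ) * orbitCount (sP N) = dedekindPsi N + nuTwo N := by exact_mod_cast hS
  have hU' : (3 : ℚ) * orbitCount (uP N) = dedekindPsi N + 2 * nuThree N := by exact_mod_cast hU
  have hT' : (orbitCount (tP N) : ℚ) = cuspCount N := by exact_mod_cast hT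
  have hc' : (Fintype.card (PN N) : ℚ) = dedekindPsi N := by exact_mod_cast hcard
  have hg' : (Fintype.card (PN N) : ℚ) - orbitCount (sP N) - orbitCount (uP N) - orbitCount (tP N) + 2 = 2 * (g : ℚ) := by exact_mod_cast hg
  linarith

end Fermat.Agent.S24
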