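import Fermat.Statements.S28
import Fermat.Agent.Lib.IG_Main
import Fermat.Agent.Lib.IG_Bridge
import Fermat.Agent.Lib.IG_QEPApp
import Fermat.Agent.Lib.IG_Glue

set_option autoImplicit false
open AlgebraicGeometry CategoryTheory CategoryTheory.Limits ModularCurve ModularCurve.IgusaScheme
noncomputable section
set_option autoImplicit false
open ModularCurve ModularCurve.IgusaScheme

namespace Fermat.Agent.S28

set_option maxHeartbeats 4000000 in
set_option synthInstance.maxHeartbeats 400000 in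
theorem result
    (N : ℕ) [NeZero N] (ℓ : ℕ) [Fact ℓ.Prime] (hℓN : ¬ ℓ ∣ N)
    (K : Type) [Field K] [CharP K ℓ] [Algebra ↥(GaloisRep.ratLocalizedAt ℓ) K] :
    IsIntegral ↑(pullback (igusaTo N ℓ)
      (Spec.map (CommRingCat.ofHom (algebraMap ↥(GaloisRep.ratLocalizedAt ℓ) K)))) := by
  obtain ⟨k, hk1, hk2, b, hb, hli⟩ := Fermat.Agent.IG.tow_exists_indep ℓ N hℓN
  have hβ : ∀ i, coeffMap (Int.castRingHom ℚ) (b i) ∈ modularFunctionFieldFull N :=
    fun i => Fermat.Agent.IG.brg_hbeta N (hb i)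
  obtain ⟨hFin, hInf, hMid⟩ := Fermat.Agent.IG.igusa_domains N ℓ K (dedekindPsi N) b hβ
    (Fermat.Agent.IG.brg_hdep N b hβ) ⟨k, hk1, hk2, Fermat.Agent.IG.brg_hind _ hli⟩
  exact Fermat.Agent.IG.isIntegral_pullback_igusaTo_of_domains N ℓ K hFin hInf hMid

end Fermat.Agent.S28
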