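-- Statement S51: a semistable Weierstrass model over ℤ has an irreducible mod 3 or an
-- irreducible mod 5 Galois representation.
--
-- Proof (team effort, files `Fermat/Agent/Lib/T51_*.lean`): if both were reducible, the curve
-- would have a rational root of the 3-division polynomial (`red3_int`) and rational symmetric
-- functions of the x-coordinates of a 5-cycle (`red5_int`); this gives a rational point on
-- `X₀(15)`, which is mapped to the elliptic curve `y² = x (x - 16) (x + 9)`; its rational
-- points (`ratpoints_15a`, a 2-descent) leave four j-invariants, none of them semistable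
-- (`alg_core`).
import Fermat.Statements.S51
import Fermat.Agent.Lib.T51_Red
import Fermat.Agent.Lib.T51_Desc
import Fermat.Agent.Lib.T51_Alg

set_option autoImplicit false
open WeierstrassCurve WeierstrassCurve.Affine WeierstrassCurve.Affine.Point
open CuspForm ModularFormClass UpperHalfPlane
open WeierstrassCurve

namespace Fermat.Agent.S51

theorem result (W : WeierstrassCurve ℤ) (hΔ : W.Δ ≠ 0) (hW : W.IsSemistableModel) : W.ModRepIsIrreducible 3 ∨ W.ModRepIsIrreducible 5 := by
  by_contra hcon
  rw [not_or] at hcon
  obtain ⟨h3, h5⟩ := hcon
  obtain ⟨X, hX⟩ := Fermat.Agent.T51.red3_int W hΔ h3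
  obtain ⟨s, m, hsm, hI, hII⟩ := Fermat.Agent.T51.red5_int W hΔ h5
  exact Fermat.Agent.T51.alg_core Fermat.Agent.T51.ratpoints_15a W.c₄ W.c₆ W.Δ W.c_relation hΔ hW
    X hX s m hsm (by linear_combination (-1 : ℚ) * hI) (by linear_combination hII - s * hI)

end Fermat.Agent.S51
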