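-- Statement S53: existence of the universal deformation ring.
import Fermat.Statements.S53
import Fermat.Agent.Lib.DR_Galois
import Fermat.Agent.Lib.DR_Prorep
import Fermat.Agent.Lib.DR_Complete

set_option autoImplicit false
set_option autoImplicit false
open GaloisRep

namespace Fermat.Agent.S53

open IsLocalRing Fermat.Agent.DR

section Aux

variable {R : Type} [CommRing R]

/-- In a Hausdorff ring, two elements congruent modulo all powers of the ideal are equal. -/
theorem eq_of_forall_mk_eq (I : Ideal R) [IsHausdorff I R] {a b : R}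
    (h : ∀ n : ℕ, Ideal.Quotient.mk (I ^ (n + 1)) a = Ideal.Quotient.mk (I ^ (n + 1)) b) :
    a = b := by
  rw [← sub_eq_zero]
  refine IsHausdorff.haus ‹_› _ fun n => ?_
  rw [SModEq.zero, smul_eq_mul, Ideal.mul_top]
  have := h n
  rw [Ideal.Quotient.eq] at this
  exact Ideal.pow_le_pow_right (Nat.le_succ n) this

/-- Multiplicativity can be checked on a jointly injective family of quotients. -/
theorem isHom_of_forall_mk (I : Ideal R) [IsHausdorff I R] {z : Idx → R}
    (h : ∀ n : ℕ, IsHom (fun p => Ideal.Quotient.mk (I ^ (n + 1)) (z p))) : IsHom z := by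
  have key : ∀ M N : Matrix (Fin 2) (Fin 2) R,
      (∀ n : ℕ, M.map (Ideal.Quotient.mk (I ^ (n + 1))) = N.map (Ideal.Quotient.mk (I ^ (n + 1)))) →
      M = N := by
    intro M N hMN
    ext i j
    exact eq_of_forall_mk_eq I fun n => congrFun (congrFun (hMN n) i) j
  refine ⟨key _ _ fun n => ?_, fun g h' => key _ _ fun n => ?_⟩
  · rw [← mat_map, (h n).1, Matrix.map_one _ (map_zero _) (map_one _)]
  · rw [Matrix.map_mul, ← mat_map, ← mat_map, ← mat_map, (h n).2]

variable [IsLocalRing R]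

theorem stdRep_congr {x x' : Idx → R} (hxx : x = x') (h1 : IsHom x) (h2 : IsCont R x)
    (h1' : IsHom x') (h2' : IsCont R x') :
    (stdRep R x h1 h2).IsEquiv (stdRep R x' h1' h2') := by
  subst hxx
  exact ⟨GaloisRepAdic.Equiv.refl _⟩

end Aux

theorem result
    (𝒪 : Type) [CommRing 𝒪] [IsDomain 𝒪] [IsDiscreteValuationRing 𝒪]
    [IsAdicComplete (IsLocalRing.maximalIdeal 𝒪) 𝒪] [Finite (IsLocalRing.ResidueField 𝒪)]
    (ρbar : ResidualGaloisRep (IsLocalRing.ResidueField 𝒪))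
    (𝒟 : ∀ ⦃A : Type⦄ [CommRing A] [IsLocalRing A] [Algebra 𝒪 A], GaloisRepAdic A → Prop)
    (habs : ρbar.IsAbsolutelyIrreducible)
    (h𝒟 : GaloisRep.IsDeformationCondition 𝒪 𝒟)
    (hbar : 𝒟 (GaloisRepAdic.ofResidualGaloisRep ρbar))
    (hfin : GaloisRep.TangentFinite 𝒪 ρbar 𝒟) :
    Nonempty (GaloisRep.DeformationRingData 𝒪 ρbar 𝒟) := by
  obtain ⟨F⟩ := exists_frame ρbar habs
  have hPF := GalP_pfData F h𝒟 hbar hfin
  obtain ⟨R, iCR, iLoc, iNoeth, iComp, iAlg, iLocHom, hres, xu, hi, hii⟩ := exists_prorep hPF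
  -- the Artinian quotients of `R`
  have key : ∀ n : ℕ, ∃ _ : IsLocalRing (R ⧸ maximalIdeal R ^ (n + 1)),
      IsArtinianTestAlgebra 𝒪 (R ⧸ maximalIdeal R ^ (n + 1)) ∧
      maximalIdeal (R ⧸ maximalIdeal R ^ (n + 1)) ^ (n + 1) = ⊥ ∧
      GalP F 𝒟 (R ⧸ maximalIdeal R ^ (n + 1))
        (fun i => Ideal.Quotient.mk (maximalIdeal R ^ (n + 1)) (xu i)) := by
    intro n
    obtain ⟨hloc, htest, hlev⟩ := complete_quotient_test iLocHom hres n
    exact ⟨hloc, htest, hlev, hi _ htest (Ideal.Quotient.mkₐ 𝒪 _) (Ideal.Quotient.mkₐ_surjective 𝒪 _)⟩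
  -- `xu` is multiplicative
  have h1 : IsHom xu := isHom_of_forall_mk (maximalIdeal R) fun n => by
    obtain ⟨_, -, -, hG⟩ := key n
    exact hG.choose
  -- `xu` is normalised
  have hN : F.IsNormalized (mat xu) := by
    refine { map_one := h1.1, map_mul := h1.2, res := ?_, n₁ := ?_, n₂ := ?_, n₃ := ?_ }
    · intro σ i j
      obtain ⟨hloc, htest, -, hG⟩ := key 0
      obtain ⟨-, -, hn, -⟩ := hG
      have h := hn.res σ i j
      by_contra hcon
      have hu : IsUnit (mat xu σ i j - algebraMap 𝒪 R (F.rt σ i j)) := by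
        rwa [mem_maximalIdeal, mem_nonunits_iff, not_not] at hcon
      have hu' := hu.map (Ideal.Quotient.mkₐ 𝒪 (maximalIdeal R ^ (0 + 1)))
      rw [map_sub, AlgHom.commutes] at hu'
      exact (mem_nonunits_iff.mp ((mem_maximalIdeal _).mp h)) hu'
    · refine eq_of_forall_mk_eq (maximalIdeal R) fun n => ?_
      obtain ⟨_, -, -, hG⟩ := key n
      obtain ⟨-, -, hn, -⟩ := hG
      rw [map_zero]
      exact hn.n₁
    · refine eq_of_forall_mk_eq (maximalIdeal R) fun n => ?_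
      obtain ⟨_, -, -, hG⟩ := key n
      obtain ⟨-, -, hn, -⟩ := hG
      rw [map_one]
      exact hn.n₂
    · refine eq_of_forall_mk_eq (maximalIdeal R) fun n => ?_
      obtain ⟨_, -, -, hG⟩ := key n
      obtain ⟨-, -, hn, -⟩ := hG
      exact hn.n₃
  -- `xu` is continuous
  have h2 : IsCont R xu := by
    intro n
    obtain ⟨hloc, -, hlev, hG⟩ := key n
    obtain ⟨-, hc, -, -⟩ := hG
    obtain ⟨L, hL, hσ⟩ := hc (n + 1)
    refine ⟨L, hL, fun σ hσL i j => ?_⟩
    have h := hσ σ hσL i j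
    rw [hlev, Ideal.mem_bot] at h
    have h' : Ideal.Quotient.mk (maximalIdeal R ^ (n + 1))
        (mat xu σ i j - (1 : Matrix (Fin 2) (Fin 2) R) i j) = 0 := by
      rw [map_sub, ← h]
      congr 1
      simp only [Matrix.one_apply]
      split_ifs <;> simp
    rw [Ideal.Quotient.eq_zero_iff_mem] at h'
    exact Ideal.pow_le_pow_right (Nat.le_succ n) h'
  -- the universal representation is of type `𝒟`
  have hD : 𝒟 (stdRep R xu h1 h2) := by
    rw [h𝒟.iff_forall_surjective iLocHom hres]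
    intro B _ _ _ hB q hq hsurj
    obtain ⟨h1', h2', -, hDB⟩ := hi B hB q hsurj
    obtain ⟨e⟩ := stdRep_baseChange (q : R →+* B) hq xu h1 h2 h1' h2'
    exact h𝒟.of_isEquiv hB ⟨e.symm⟩ hDB
  -- its residual representation
  have hresid : (stdRep R xu h1 h2).residual.IsEquiv
      (ρbar.baseChangeAlong (IsLocalRing.ResidueField.map (algebraMap 𝒪 R))) := by
    refine stdRep_residual ρbar F.e _ xu h1 h2 fun g i j => ?_
    have h := hN.res g i j
    rw [← residue_eq_zero_iff, map_sub, sub_eq_zero] at h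
    rw [← F.rt_res, ResidueField.map_residue]
    exact h
  refine ⟨{ R := R
            residue_surjective := hres
            absIrr := habs
            ρ := stdRep R xu h1 h2
            isOfType := hD
            residual_isEquiv := hresid
            universal := ?_ }⟩
  intro A _ _ _ _ _ hAloc hresA ρA hDA hresEq
  -- a matrix model of `ρA` lifting the residual matrices
  obtain ⟨x₀, h1₀, h2₀, hres₀, hEq₀⟩ := exists_stdRep_of_residual ρbar F.e
    (IsLocalRing.ResidueField.map (algebraMap 𝒪 A)) ρA hresEq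
  have hL₀ : F.IsLift (mat x₀) := by
    refine { map_one := h1₀.1, map_mul := h1₀.2, res := fun σ i j => ?_ }
    rw [← residue_eq_zero_iff, map_sub, sub_eq_zero]
    have := hres₀ σ i j
    rw [← F.rt_res, ResidueField.map_residue] at this
    exact this
  -- normalise it
  obtain ⟨P, Q, hPQ, hQP, -, hNA'⟩ := Frame.exists_normalized hL₀
  set xA : Idx → A := tup fun σ => P * mat x₀ σ * Q with hxA
  have hNA : F.IsNormalized (mat xA) := by rw [hxA, mat_tup]; exact hNA'
  have h1A : IsHom xA := isHom_conj hPQ hQP h1₀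
  have h2A : IsCont A xA := isCont_conj hPQ h2₀
  have hEqA : (stdRep A xA h1A h2A).IsEquiv ρA := by
    obtain ⟨e⟩ := stdRep_conj_isEquiv hPQ hQP x₀ h1₀ h2₀ h1A h2A
    obtain ⟨e₀⟩ := hEq₀
    exact ⟨e.symm.trans e₀⟩
  -- the reductions of `xA` are points of the Galois functor
  have hpt : ∀ n : ℕ, ∃! φ : R →ₐ[𝒪] A ⧸ maximalIdeal A ^ (n + 1),
      ∀ i, φ (xu i) = Ideal.Quotient.mk (maximalIdeal A ^ (n + 1)) (xA i) := by
    intro n
    obtain ⟨hloc, htest, -⟩ := complete_quotient_test hAloc hresA n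
    refine hii _ htest _ ?_
    have hq : IsLocalHom ((Ideal.Quotient.mkₐ 𝒪 (maximalIdeal A ^ (n + 1)) :
        A →ₐ[𝒪] A ⧸ maximalIdeal A ^ (n + 1)) : A →+* A ⧸ maximalIdeal A ^ (n + 1)) :=
      complete_algHom_isLocalHom htest.residue_surjective _
    have h1' := isHom_map ((Ideal.Quotient.mkₐ 𝒪 (maximalIdeal A ^ (n + 1)) :
        A →ₐ[𝒪] A ⧸ maximalIdeal A ^ (n + 1)) : A →+* A ⧸ maximalIdeal A ^ (n + 1)) h1A
    have h2' := isCont_map ((Ideal.Quotient.mkₐ 𝒪 (maximalIdeal A ^ (n + 1)) :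
        A →ₐ[𝒪] A ⧸ maximalIdeal A ^ (n + 1)) : A →+* A ⧸ maximalIdeal A ^ (n + 1)) hq h2A
    refine ⟨h1', h2', hNA.map (Ideal.Quotient.mkₐ 𝒪 (maximalIdeal A ^ (n + 1))) hq, ?_⟩
    have hDq := (h𝒟.iff_forall_surjective hAloc hresA ρA).mp hDA htest
      (Ideal.Quotient.mkₐ 𝒪 (maximalIdeal A ^ (n + 1))) hq (Ideal.Quotient.mkₐ_surjective 𝒪 _)
    obtain ⟨eA⟩ := hEqA
    obtain ⟨e⟩ := stdRep_baseChange _ hq xA h1A h2A h1' h2'
    exact h𝒟.of_isEquiv htest ⟨((eA.baseChangeAlong _ hq).symm).trans e⟩ hDq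
  obtain ⟨φ, hφ, hφuniq⟩ := complete_exists_unique_algHom (maximalIdeal A) xu xA hpt
  have hφloc : IsLocalHom (φ : R →+* A) := complete_algHom_isLocalHom hresA φ
  refine ⟨φ, ⟨hφloc, ?_⟩, ?_⟩
  · -- existence
    have h1' := isHom_map (φ : R →+* A) h1
    have h2' := isCont_map (φ : R →+* A) hφloc h2
    obtain ⟨e⟩ := stdRep_baseChange (φ : R →+* A) hφloc xu h1 h2 h1' h2'
    obtain ⟨e'⟩ := stdRep_congr (funext hφ : (fun p => (φ : R →+* A) (xu p)) = xA) h1' h2' h1A h2A
    obtain ⟨eA⟩ := hEqA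
    exact ⟨(e.trans e').trans eA⟩
  · -- uniqueness
    rintro φ' ⟨hφ'loc, hEq'⟩
    refine hφuniq φ' fun p => ?_
    have h1' := isHom_map (φ' : R →+* A) h1
    have h2' := isCont_map (φ' : R →+* A) hφ'loc h2
    have hN' : F.IsNormalized (mat (fun p => (φ' : R →+* A) (xu p))) := hN.map φ' hφ'loc
    obtain ⟨e⟩ := stdRep_baseChange (φ' : R →+* A) hφ'loc xu h1 h2 h1' h2'
    obtain ⟨e'⟩ := hEq'
    obtain ⟨eA⟩ := hEqA
    have hconj : (stdRep A (fun p => (φ' : R →+* A) (xu p)) h1' h2').IsEquiv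
        (stdRep A xA h1A h2A) := ⟨(e.symm.trans e').trans eA.symm⟩
    rw [stdRep_isEquiv_iff] at hconj
    obtain ⟨P', Q', hPQ', hQP', hc⟩ := hconj
    have huniq := Frame.normalized_unique hN' hNA P' Q' hPQ' hQP' hc
    have := congrFun (congrFun (congrFun huniq p.1) p.2.1) p.2.2
    exact this

end Fermat.Agent.S53
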