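import Mathlib
import Fermat.Statements.S57

set_option autoImplicit false
open Algebra Algebra.PatchingLevel

namespace Fermat.Agent.S57

open IsLocalRing RingTheory.Sequence CategoryTheory Abelian Pointwise

/-- existence of a regular element outside `𝔪²` -/
theorem exists_regular_not_mem_sq (P : Type) [CommRing P] [IsLocalRing P] [IsNoetherianRing P]
    (N : Type) [AddCommGroup N] [Module P N] [Module.Finite P N] [Nontrivial N]
    (a : P) (ha : a ∈ maximalIdeal P) (hreg : IsSMulRegular N a) :
    ∃ x ∈ maximalIdeal P, x ∉ maximalIdeal P ^ 2 ∧ IsSMulRegular N x := by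
  classical
  have hne : maximalIdeal P ≠ ⊥ := by
    intro h
    rw [h, Ideal.mem_bot] at ha
    subst ha
    have : Subsingleton N := IsSMulRegular.subsingleton hreg
    exact not_subsingleton N this
  have hsq : ¬ maximalIdeal P ≤ maximalIdeal P ^ 2 := by
    intro h
    apply hne
    have := Submodule.eq_bot_of_le_smul_of_le_jacobson_bot (maximalIdeal P) (maximalIdeal P)
      (IsNoetherian.noetherian _) (by rwa [smul_eq_mul, ← pow_two])
      (IsLocalRing.jacobson_eq_maximalIdeal ⊥ bot_ne_top).ge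
    exact this
  have hfin := associatedPrimes.finite P N
  let s : Finset (Ideal P) := insert (maximalIdeal P ^ 2) hfin.toFinset
  have key := Ideal.subset_union_prime (s := s) (f := fun i => i) (maximalIdeal P ^ 2)
    (maximalIdeal P ^ 2) (I := maximalIdeal P) (by
      intro i hi h1 _
      have : i ∈ associatedPrimes P N := by
        have := Finset.mem_insert.mp hi
        rcases this with h | h
        · exact absurd h h1
        · exact hfin.mem_toFinset.mp h
      exact this.isPrime)
  have hnot : ¬ ∃ i ∈ s, maximalIdeal P ≤ i := by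
    rintro ⟨i, hi, hle⟩
    rcases Finset.mem_insert.mp hi with h | h
    · exact hsq (h ▸ hle)
    · have hi' : i ∈ associatedPrimes P N := hfin.mem_toFinset.mp h
      have hprime : i.IsPrime := hi'.isPrime
      have : i = maximalIdeal P := le_antisymm (IsLocalRing.le_maximalIdeal hprime.ne_top) hle
      have hmem : a ∈ ⋃ p ∈ associatedPrimes P N, (p : Set P) := by
        refine Set.mem_biUnion hi' ?_
        rw [this]; exact ha
      rw [biUnion_associatedPrimes_eq_compl_regular] at hmem
      exact hmem hreg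
  rw [← key] at hnot
  obtain ⟨x, hx, hx'⟩ := Set.not_subset.mp hnot
  refine ⟨x, hx, ?_, ?_⟩
  · intro h
    apply hx'
    exact Set.mem_biUnion (Finset.mem_coe.mpr (Finset.mem_insert_self _ _)) h
  · by_contra hnr
    have : x ∈ ⋃ p ∈ associatedPrimes P N, (p : Set P) := by
      rw [biUnion_associatedPrimes_eq_compl_regular]; exact hnr
    obtain ⟨p, hp, hxp⟩ := Set.mem_iUnion₂.mp this
    apply hx'
    exact Set.mem_biUnion (Finset.mem_coe.mpr (Finset.mem_insert_of_mem (hfin.mem_toFinset.mpr hp))) hxp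

/-- generators of the maximal ideal of the quotient by `x ∉ 𝔪²` -/
theorem exists_gens_quotient (P : Type) [CommRing P] [IsLocalRing P]
    (n : ℕ) (s : Finset P) (hs : s.card ≤ n + 1) (hspan : Ideal.span (s : Set P) = maximalIdeal P)
    (x : P) (hx : x ∈ maximalIdeal P) (hx2 : x ∉ maximalIdeal P ^ 2)
    [IsLocalRing (P ⧸ Ideal.span {x})] :
    ∃ s' : Finset (P ⧸ Ideal.span {x}), s'.card ≤ n ∧
      Ideal.span (s' : Set (P ⧸ Ideal.span {x})) = maximalIdeal (P ⧸ Ideal.span {x}) := by
  classical
  have hxs : x ∈ Ideal.span (s : Set P) := hspan ▸ hx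
  obtain ⟨c, -, hc⟩ := Submodule.mem_span_finset.mp hxs
  have hz : ∃ z ∈ s, c z ∉ maximalIdeal P := by
    by_contra hcon
    push Not at hcon
    apply hx2
    rw [← hc, pow_two]
    refine Ideal.sum_mem _ fun y hy => ?_
    rw [smul_eq_mul]
    exact Ideal.mul_mem_mul (hcon y hy) (hspan ▸ Ideal.subset_span (Finset.mem_coe.mpr hy))
  obtain ⟨z, hzs, hcz⟩ := hz
  have hu : IsUnit (c z) := by
    by_contra h
    exact hcz ((IsLocalRing.mem_maximalIdeal _).mpr h)
  obtain ⟨u, hu⟩ := hu
  let mk := Ideal.Quotient.mk (Ideal.span {x})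
  refine ⟨(s.erase z).image mk, ?_, ?_⟩
  · calc ((s.erase z).image mk).card ≤ (s.erase z).card := Finset.card_image_le
      _ = s.card - 1 := Finset.card_erase_of_mem hzs
      _ ≤ n := by omega
  · have hlocal : IsLocalHom mk := IsLocalHom.of_surjective mk Ideal.Quotient.mk_surjective
    apply le_antisymm
    · rw [Ideal.span_le]
      intro y hy
      obtain ⟨w, hw, rfl⟩ := Finset.mem_image.mp (Finset.mem_coe.mp hy)
      have hwm : w ∈ maximalIdeal P := hspan ▸ Ideal.subset_span (Finset.mem_coe.mpr (Finset.mem_of_mem_erase hw))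
      exact _root_.map_nonunit mk w hwm
    · intro y hy
      obtain ⟨w, rfl⟩ := Ideal.Quotient.mk_surjective y
      have hwm : w ∈ maximalIdeal P := by
        rw [IsLocalRing.mem_maximalIdeal, mem_nonunits_iff] at hy ⊢
        exact fun h => hy (h.map mk)
      -- z is in the span of x and s.erase z
      have hkey : ∀ I : Ideal P, x ∈ I → (∀ a ∈ s.erase z, a ∈ I) → z ∈ I := by
        intro I hxI haI
        have h1 : c z * z = x - ∑ a ∈ s.erase z, c a • a := by
          rw [← hc, ← Finset.add_sum_erase s _ hzs]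
          simp
        have h2 : z = (↑u⁻¹ : P) * (x - ∑ a ∈ s.erase z, c a • a) := by
          rw [← h1, ← hu, ← mul_assoc, Units.inv_mul, one_mul]
        rw [h2]
        refine Ideal.mul_mem_left _ _ (Ideal.sub_mem _ hxI ?_)
        refine Ideal.sum_mem _ fun a ha => ?_
        rw [smul_eq_mul]
        exact Ideal.mul_mem_left _ _ (haI a ha)
      have hzspan : z ∈ Ideal.span (insert x ((s.erase z : Finset P) : Set P)) :=
        hkey _ (Ideal.subset_span (Set.mem_insert _ _))
          (fun a ha => Ideal.subset_span (Set.mem_insert_of_mem _ (Finset.mem_coe.mpr ha)))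
      have hle : Ideal.span (s : Set P) ≤ Ideal.span (insert x ((s.erase z : Finset P) : Set P)) := by
        rw [Ideal.span_le]
        intro a ha
        by_cases haz : a = z
        · rw [haz]; exact hzspan
        · exact Ideal.subset_span (Set.mem_insert_of_mem _
            (Finset.mem_coe.mpr (Finset.mem_erase.mpr ⟨haz, Finset.mem_coe.mp ha⟩)))
      have hw' : w ∈ Ideal.span (insert x ((s.erase z : Finset P) : Set P)) := hle (hspan ▸ hwm)
      have : mk w ∈ Ideal.map mk (Ideal.span (insert x ((s.erase z : Finset P) : Set P))) :=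
        Ideal.mem_map_of_mem mk hw'
      rw [Ideal.map_span, Set.image_insert_eq] at this
      have hx0 : mk x = 0 := Ideal.Quotient.eq_zero_iff_mem.mpr (Ideal.subset_span rfl)
      rw [hx0, Ideal.span_insert_zero] at this
      rwa [Finset.coe_image]

theorem dim_quotient_ge (P : Type) [CommRing P] [IsLocalRing P] [IsNoetherianRing P]
    (n : ℕ) (hdim : ((n + 1 : ℕ) : WithBot ℕ∞) ≤ ringKrullDim P)
    (x : P) (hx : x ∈ maximalIdeal P) :
    (n : WithBot ℕ∞) ≤ ringKrullDim (P ⧸ Ideal.span {x}) := by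
  have h1 := ringKrullDim_le_ringKrullDim_quotSMulTop_succ hx
  have h2 : (x • (⊤ : Ideal P)) = Ideal.span {x} := by
    rw [← Submodule.ideal_span_singleton_smul x ⊤, smul_eq_mul, Ideal.mul_top]
  have h3 : ringKrullDim (P ⧸ x • (⊤ : Ideal P)) = ringKrullDim (P ⧸ Ideal.span {x}) :=
    ringKrullDim_eq_of_ringEquiv (Ideal.quotEquivOfEq h2)
  rw [h3] at h1
  have h4 : ((n : ℕ) : WithBot ℕ∞) + 1 ≤ ringKrullDim (P ⧸ Ideal.span {x}) + 1 := by
    refine le_trans ?_ (le_trans hdim h1)
    push_cast
    exact le_rfl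
  generalize ringKrullDim (P ⧸ Ideal.span {x}) = D at h4 ⊢
  induction D using WithBot.recBotCoe with
  | bot => simp at h4
  | coe m =>
    have h5 : ((n : ℕ∞) + 1 : ℕ∞) ≤ m + 1 := by exact_mod_cast h4
    have h6 : (n : ℕ∞) ≤ m := (ENat.add_le_add_iff_right (by simp)).mp h5
    exact_mod_cast h6

/-- depth of the quotient by a regular element -/
theorem exists_regular_quot (P : Type) [CommRing P] [IsLocalRing P] [IsNoetherianRing P]
    (N : Type) [AddCommGroup N] [Module P N] [Module.Finite P N]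
    (n : ℕ) (rs : List P) (hlen : rs.length = n + 1) (hmem : ∀ r ∈ rs, r ∈ maximalIdeal P)
    (hreg : IsRegular N rs) (x : P) (hx : x ∈ maximalIdeal P) (hxreg : IsSMulRegular N x) :
    ∃ rs' : List P, rs'.length = n ∧ (∀ r ∈ rs', r ∈ maximalIdeal P) ∧
      IsRegular (QuotSMulTop x N) rs' := by
  have hNnt : Nontrivial N := hreg.nontrivial
  have hsupp : Module.support P (P ⧸ maximalIdeal P) = PrimeSpectrum.zeroLocus (maximalIdeal P) := by
    rw [Module.support_eq_zeroLocus, Ideal.annihilator_quotient]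
  have smul_lt : maximalIdeal P • (⊤ : Submodule P N) < ⊤ :=
    lt_top_iff_ne_top.mpr (Ne.symm (Submodule.top_ne_ideal_smul_of_le_jacobson_annihilator
      (IsLocalRing.maximalIdeal_le_jacobson _)))
  have hNq : Nontrivial (QuotSMulTop x N) := nontrivial_quotSMulTop_of_mem_maximalIdeal N hx
  have smul_lt' : maximalIdeal P • (⊤ : Submodule P (QuotSMulTop x N)) < ⊤ :=
    lt_top_iff_ne_top.mpr (Ne.symm (Submodule.top_ne_ideal_smul_of_le_jacobson_annihilator
      (IsLocalRing.maximalIdeal_le_jacobson _)))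
  have h_ext : ∀ i < rs.length, Subsingleton (Ext (ModuleCat.of P (P ⧸ maximalIdeal P)) (ModuleCat.of P N) i) :=
    ModuleCat.subsingleton_ext_of_exists_isRegular (maximalIdeal P) (ModuleCat.of P (P ⧸ maximalIdeal P))
      hsupp.subset (ModuleCat.of P N) smul_lt rs hmem hreg
  have h_ext' : ∀ i < n, Subsingleton (Ext (ModuleCat.of P (P ⧸ maximalIdeal P))
      (ModuleCat.of P (QuotSMulTop x N)) i) := by
    intro i hi
    have zero1 := AddCommGrpCat.isZero_of_iff_subsingleton.mpr (h_ext i (by omega))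
    have zero2 := AddCommGrpCat.isZero_of_iff_subsingleton.mpr (h_ext (i + 1) (by omega))
    exact AddCommGrpCat.subsingleton_of_isZero <| ShortComplex.Exact.isZero_of_both_zeros
      ((Ext.covariant_sequence_exact₃' (ModuleCat.of P (P ⧸ maximalIdeal P))
        (IsSMulRegular.smulShortComplex_shortExact (M := ModuleCat.of P N) hxreg)) i (i + 1) rfl)
      (zero1.eq_zero_of_src _) (zero2.eq_zero_of_tgt _)
  exact ModuleCat.exists_isRegular_of_exists_subsingleton_ext (maximalIdeal P) n
    (ModuleCat.of P (QuotSMulTop x N)) smul_lt' (ModuleCat.of P (P ⧸ maximalIdeal P)) hsupp h_ext'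

theorem free_of_regular_aux (n : ℕ) : ∀ (P : Type) [CommRing P] [IsLocalRing P] [IsNoetherianRing P]
    (s : Finset P), s.card ≤ n → Ideal.span (s : Set P) = maximalIdeal P →
    (n : WithBot ℕ∞) ≤ ringKrullDim P →
    ∀ (N : Type) [AddCommGroup N] [Module P N] [Module.Finite P N] (rs : List P),
      rs.length = n → (∀ r ∈ rs, r ∈ maximalIdeal P) → IsRegular N rs → Module.Free P N := by
  induction n with
  | zero =>
    intro P _ _ _ s hs hspan _ N _ _ _ rs _ _ _
    have hs0 : s = ∅ := Finset.card_eq_zero.mp (Nat.le_zero.mp hs)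
    have hbot : maximalIdeal P = ⊥ := by
      rw [← hspan, hs0]; simp
    have hf : IsField P := IsLocalRing.isField_iff_maximalIdeal_eq.mpr hbot
    let := hf.toField
    exact Module.Free.of_divisionRing P N
  | succ n ih =>
    intro P _ _ _ s hs hspan hdim N _ _ _ rs hlen hmem hreg
    have hNnt : Nontrivial N := hreg.nontrivial
    -- first element of rs
    obtain ⟨a, rs₁, rfl⟩ : ∃ a rs₁, rs = a :: rs₁ := by
      cases rs with
      | nil => simp at hlen
      | cons a rs₁ => exact ⟨a, rs₁, rfl⟩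
    have ha : a ∈ maximalIdeal P := hmem a List.mem_cons_self
    have hareg : IsSMulRegular N a := ((isRegular_cons_iff N a rs₁).mp hreg).1
    obtain ⟨x, hx, hx2, hxreg⟩ := exists_regular_not_mem_sq P N a ha hareg
    have hxne : Ideal.span {x} ≠ ⊤ := by
      intro h
      rw [Ideal.span_singleton_eq_top] at h
      exact hx h
    have : Nontrivial (P ⧸ Ideal.span {x}) := Ideal.Quotient.nontrivial_iff.mpr hxne
    have : IsLocalRing (P ⧸ Ideal.span {x}) :=
      IsLocalRing.of_surjective' (Ideal.Quotient.mk (Ideal.span {x})) Ideal.Quotient.mk_surjective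
    have hlocal : IsLocalHom (Ideal.Quotient.mk (Ideal.span {x})) :=
      IsLocalHom.of_surjective _ Ideal.Quotient.mk_surjective
    obtain ⟨s', hs', hspan'⟩ := exists_gens_quotient P n s hs hspan x hx hx2
    have hdim' := dim_quotient_ge P n hdim x hx
    obtain ⟨rs', hlen', hmem', hreg'⟩ := exists_regular_quot P N n (a :: rs₁) hlen hmem hreg x hx hxreg
    have : Module.Finite (P ⧸ Ideal.span {x}) (QuotSMulTop x N) :=
      Module.Finite.of_restrictScalars_finite P (P ⧸ Ideal.span {x}) (QuotSMulTop x N)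
    have hNq : Nontrivial (QuotSMulTop x N) := nontrivial_quotSMulTop_of_mem_maximalIdeal N hx
    have hw : IsWeaklyRegular (QuotSMulTop x N) (rs'.map (algebraMap P (P ⧸ Ideal.span {x}))) :=
      (isWeaklyRegular_map_algebraMap_iff (P ⧸ Ideal.span {x}) (QuotSMulTop x N) rs').mpr
        hreg'.toIsWeaklyRegular
    have hmem'' : ∀ r ∈ rs'.map (algebraMap P (P ⧸ Ideal.span {x})),
        r ∈ maximalIdeal (P ⧸ Ideal.span {x}) := by
      intro r hr
      obtain ⟨r₀, hr₀, rfl⟩ := List.mem_map.mp hr
      exact _root_.map_nonunit (Ideal.Quotient.mk (Ideal.span {x})) r₀ (hmem' r₀ hr₀)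
    have hreg'' : IsRegular (QuotSMulTop x N) (rs'.map (algebraMap P (P ⧸ Ideal.span {x}))) :=
      IsRegular.of_isWeaklyRegular_of_mem_maximalIdeal _ hmem'' hw
    have hfree : Module.Free (P ⧸ Ideal.span {x}) (QuotSMulTop x N) :=
      ih (P ⧸ Ideal.span {x}) s' hs' hspan' hdim' (QuotSMulTop x N) _ (by simpa using hlen') hmem'' hreg''
    have : Module.FinitePresentation P N := Module.finitePresentation_of_finite P N
    have hxj : x ∈ (⊥ : Ideal P).jacobson := by
      rw [IsLocalRing.jacobson_eq_maximalIdeal (⊥ : Ideal P) bot_ne_top]; exact hx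
    exact (Module.free_quotSMulTop_iff_free P N hxj hxreg).mp hfree

/-- A local ring has a regular sequence of length `n` generating its maximal ideal. -/
def HasRSP (A : Type) [CommRing A] [IsLocalRing A] (n : ℕ) : Prop :=
  ∃ rs : List A, rs.length = n ∧ IsRegular A rs ∧ Ideal.ofList rs = maximalIdeal A

theorem HasRSP.of_ringEquiv {A B : Type} [CommRing A] [IsLocalRing A] [CommRing B] [IsLocalRing B]
    (e : A ≃+* B) {n : ℕ} (h : HasRSP A n) : HasRSP B n := by
  obtain ⟨rs, hlen, hreg, hmax⟩ := h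
  refine ⟨rs.map e, by simpa using hlen, ?_, ?_⟩
  · refine (AddEquiv.isRegular_congr (e := e.toAddEquiv) ?_).mp hreg
    refine List.forall₂_map_right_iff.mpr (List.forall₂_same.mpr fun r _ x => ?_)
    simp
  · have := Ideal.map_ofList (e : A →+* B) rs
    rw [hmax] at this
    rw [show rs.map e = rs.map (e : A →+* B) from rfl, ← this]
    exact IsLocalRing.map_ringEquiv_maximalIdeal e

theorem HasRSP.powerSeries {A : Type} [CommRing A] [IsLocalRing A] {n : ℕ} (h : HasRSP A n) :
    HasRSP (PowerSeries A) (n + 1) := by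
  obtain ⟨rs, hlen, hreg, hmax⟩ := h
  refine ⟨PowerSeries.X :: rs.map (PowerSeries.C (R := A)), by simpa using hlen, ?_, ?_⟩
  · rw [isRegular_cons_iff']
    constructor
    · intro a b hab
      simp only [smul_eq_mul] at hab
      exact PowerSeries.X_mul_cancel hab
    · -- additive equiv A ≃+ QuotSMulTop X A⟦X⟧
      let f : A →+ QuotSMulTop (PowerSeries.X : PowerSeries A) (PowerSeries A) :=
        (Submodule.mkQ _).toAddMonoidHom.comp (PowerSeries.C (R := A)).toAddMonoidHom
      have hinj : Function.Injective f := by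
        rw [injective_iff_map_eq_zero]
        intro a ha
        have ha' : PowerSeries.C (R := A) a ∈
            (PowerSeries.X : PowerSeries A) • (⊤ : Submodule (PowerSeries A) (PowerSeries A)) :=
          (Submodule.Quotient.mk_eq_zero _).mp ha
        obtain ⟨g, -, hg⟩ := (Submodule.mem_smul_pointwise_iff_exists _ _ _).mp ha'
        have := congrArg PowerSeries.constantCoeff hg
        simpa using this.symm
      have hsurj : Function.Surjective f := by
        intro y
        obtain ⟨g, rfl⟩ := Submodule.mkQ_surjective _ y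
        refine ⟨PowerSeries.constantCoeff g, ?_⟩
        change Submodule.mkQ _ (PowerSeries.C (PowerSeries.constantCoeff g)) = Submodule.mkQ _ g
        symm
        rw [← sub_eq_zero, ← map_sub, Submodule.mkQ_apply, Submodule.Quotient.mk_eq_zero]
        have hdvd : (PowerSeries.X : PowerSeries A) ∣ g - PowerSeries.C (PowerSeries.constantCoeff g) := by
          rw [PowerSeries.X_dvd_iff]; simp
        obtain ⟨g', hg'⟩ := hdvd
        exact (Submodule.mem_smul_pointwise_iff_exists _ _ _).mpr ⟨g', Submodule.mem_top, hg'.symm⟩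
      let e : A ≃+ QuotSMulTop (PowerSeries.X : PowerSeries A) (PowerSeries A) :=
        AddEquiv.ofBijective f ⟨hinj, hsurj⟩
      refine (AddEquiv.isRegular_congr (e := e) ?_).mp hreg
      rw [List.map_map]
      refine List.forall₂_map_right_iff.mpr (List.forall₂_same.mpr fun r _ x => ?_)
      change Submodule.mkQ _ (PowerSeries.C (r • x)) =
        (Ideal.Quotient.mk _ (PowerSeries.C r)) • Submodule.mkQ _ (PowerSeries.C x)
      rw [smul_eq_mul, map_mul]
      rfl
  · rw [Ideal.ofList_cons]
    have h1 : Ideal.ofList (rs.map (PowerSeries.C (R := A))) =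
        Ideal.map (PowerSeries.C (R := A)) (maximalIdeal A) := by
      rw [← hmax, Ideal.map_ofList]
    rw [h1]
    apply le_antisymm
    · rw [sup_le_iff, Ideal.span_le, Ideal.map_le_iff_le_comap]
      constructor
      · intro g hg
        rw [Set.mem_singleton_iff] at hg
        subst hg
        change PowerSeries.X ∈ maximalIdeal (PowerSeries A)
        rw [IsLocalRing.mem_maximalIdeal, mem_nonunits_iff, PowerSeries.isUnit_iff_constantCoeff]
        simp
      · intro a ha
        rw [Ideal.mem_comap, IsLocalRing.mem_maximalIdeal, mem_nonunits_iff,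
          PowerSeries.isUnit_iff_constantCoeff]
        simpa using ha
    · intro g hg
      rw [IsLocalRing.mem_maximalIdeal, mem_nonunits_iff, PowerSeries.isUnit_iff_constantCoeff] at hg
      have hdvd : (PowerSeries.X : PowerSeries A) ∣ g - PowerSeries.C (PowerSeries.constantCoeff g) := by
        rw [PowerSeries.X_dvd_iff]; simp
      obtain ⟨g', hg'⟩ := hdvd
      have hgeq : g = PowerSeries.X * g' + PowerSeries.C (PowerSeries.constantCoeff g) := by
        rw [← hg']; ring
      rw [hgeq]
      refine Ideal.add_mem _ (Ideal.mem_sup_left (Ideal.mul_mem_right _ _ (Ideal.subset_span rfl)))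
        (Ideal.mem_sup_right (Ideal.mem_map_of_mem _ ?_))
      exact hg

theorem HasRSP.dvr (𝒪 : Type) [CommRing 𝒪] [IsDomain 𝒪] [IsDiscreteValuationRing 𝒪] : HasRSP 𝒪 1 := by
  obtain ⟨ϖ, hϖ⟩ := IsDiscreteValuationRing.exists_irreducible 𝒪
  have hmax : maximalIdeal 𝒪 = Ideal.span {ϖ} := hϖ.maximalIdeal_eq
  refine ⟨[ϖ], rfl, ?_, ?_⟩
  · have hmem : ∀ r ∈ [ϖ], r ∈ maximalIdeal 𝒪 := by
      intro r hr
      rw [List.mem_singleton] at hr
      rw [hr, hmax]
      exact Ideal.subset_span rfl
    refine IsRegular.of_isWeaklyRegular_of_mem_maximalIdeal 𝒪 hmem ?_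
    rw [isWeaklyRegular_singleton_iff]
    intro a b hab
    simp only [smul_eq_mul] at hab
    exact mul_left_cancel₀ hϖ.ne_zero hab
  · rw [Ideal.ofList_singleton, hmax]

theorem hasRSP_mvPowerSeries (𝒪 : Type) [CommRing 𝒪] [IsDomain 𝒪] [IsDiscreteValuationRing 𝒪]
    (r : ℕ) : HasRSP (MvPowerSeries (Fin r) 𝒪) (r + 1) := by
  induction r with
  | zero => exact (HasRSP.dvr 𝒪).of_ringEquiv (MvPowerSeries.isEmptyEquiv (Fin 0) 𝒪).symm.toRingEquiv
  | succ r ih => exact ih.powerSeries.of_ringEquiv (MvPowerSeries.finSuccEquiv 𝒪 r).symm.toRingEquiv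

theorem HasRSP.exists_finset {A : Type} [CommRing A] [IsLocalRing A] {n : ℕ} (h : HasRSP A n) :
    ∃ s : Finset A, s.card ≤ n ∧ Ideal.span (s : Set A) = maximalIdeal A := by
  classical
  obtain ⟨rs, hlen, -, hmax⟩ := h
  refine ⟨rs.toFinset, hlen ▸ rs.toFinset_card_le, ?_⟩
  rw [← hmax, Ideal.ofList]
  congr 1
  ext a
  simp

theorem HasRSP.le_ringKrullDim {A : Type} [CommRing A] [IsLocalRing A] [IsNoetherianRing A] {n : ℕ}
    (h : HasRSP A n) : (n : WithBot ℕ∞) ≤ ringKrullDim A := by
  obtain ⟨rs, hlen, hreg, hmax⟩ := h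
  have h1 := ringKrullDim_add_length_eq_ringKrullDim_of_isRegular rs hreg
  rw [hlen] at h1
  rw [← h1]
  have h2 : (0 : WithBot ℕ∞) ≤ ringKrullDim (A ⧸ Ideal.ofList rs) := by
    rw [hmax]
    exact ringKrullDim_nonneg_of_nontrivial
  calc (n : WithBot ℕ∞) = 0 + n := by simp
    _ ≤ ringKrullDim (A ⧸ Ideal.ofList rs) + n := by gcongr

/-- the patched module is free over the power series ring -/
theorem free_N
    {𝒪 : Type} [CommRing 𝒪] [IsDomain 𝒪] [IsDiscreteValuationRing 𝒪]
    {r : ℕ} {R : Type} [CommRing R] [Algebra 𝒪 R]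
    {M : Type} [AddCommGroup M] [Module R M] [Nontrivial M]
    (L : Algebra.PatchingLevel 𝒪 r R M ⊥) :
    Module.Free (MvPowerSeries (Fin r) 𝒪) L.N ∧ Module.Finite (MvPowerSeries (Fin r) 𝒪) L.N ∧
      Nontrivial L.N := by
  classical
  have hNnt : Nontrivial L.N := by
    obtain ⟨m, hm⟩ := exists_ne (0 : M)
    obtain ⟨x, rfl⟩ := L.π_surjective m
    exact ⟨⟨x, 0, fun h => hm (by rw [h, map_zero])⟩⟩
  let Φf : (Fin L.d → MvPowerSeries (Fin r) 𝒪) →+ L.N :=
    { toFun := fun c => ∑ i, L.φ (c i) • L.b i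
      map_zero' := by simp
      map_add' := fun c c' => by simp [add_smul, Finset.sum_add_distrib] }
  have hΦinj : Function.Injective Φf := by
    rw [injective_iff_map_eq_zero]
    intro c hc
    have := (L.b_rel c).mp hc
    funext i
    simpa using this i
  have hΦsurj : Function.Surjective Φf := fun x => by
    obtain ⟨c, hc⟩ := L.b_span x
    exact ⟨c, hc.symm⟩
  let Φ : (Fin L.d → MvPowerSeries (Fin r) 𝒪) ≃+ L.N := AddEquiv.ofBijective Φf ⟨hΦinj, hΦsurj⟩
  have hΦsmul : ∀ (g : MvPowerSeries (Fin r) 𝒪) (c : Fin L.d → MvPowerSeries (Fin r) 𝒪),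
      Φ (g • c) = L.φ g • Φ c := by
    intro g c
    change ∑ i, L.φ ((g • c) i) • L.b i = L.φ g • ∑ i, L.φ (c i) • L.b i
    rw [Finset.smul_sum]
    refine Finset.sum_congr rfl fun i _ => ?_
    rw [Pi.smul_apply, smul_eq_mul, map_mul, mul_smul]
  have hd : Nonempty (Fin L.d) := by
    by_contra h
    rw [not_nonempty_iff] at h
    obtain ⟨x, y, hxy⟩ := hNnt
    apply hxy
    obtain ⟨c, rfl⟩ := hΦsurj x
    obtain ⟨c', rfl⟩ := hΦsurj y
    congr 1
    exact Subsingleton.elim _ _
  have hrsp := hasRSP_mvPowerSeries 𝒪 r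
  obtain ⟨s, hs, hspan⟩ := hrsp.exists_finset
  have hdim := hrsp.le_ringKrullDim
  obtain ⟨rs, hlen, hreg, hmax⟩ := hrsp
  have hmem : ∀ y ∈ rs, y ∈ maximalIdeal (MvPowerSeries (Fin r) 𝒪) :=
    fun y hy => hmax ▸ Ideal.subset_span hy
  have hregd : IsRegular (Fin L.d → MvPowerSeries (Fin r) 𝒪) rs := by
    refine IsRegular.of_isWeaklyRegular_of_mem_maximalIdeal _ hmem ?_
    have := hreg.toIsWeaklyRegular.isWeaklyRegular_rTensor (M₂ := Fin L.d → MvPowerSeries (Fin r) 𝒪)
    exact (LinearEquiv.isWeaklyRegular_congr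
      (TensorProduct.lid (MvPowerSeries (Fin r) 𝒪) (Fin L.d → MvPowerSeries (Fin r) 𝒪)) rs).mp this
  have hregN : IsRegular L.N (rs.map L.φ) := by
    refine (AddEquiv.isRegular_congr (e := Φ) ?_).mp hregd
    exact List.forall₂_map_right_iff.mpr (List.forall₂_same.mpr fun g _ c => hΦsmul g c)
  have hfin : Module.Finite (MvPowerSeries (Fin r) 𝒪) L.N := by
    refine Module.Finite.of_surjective
      (Fintype.linearCombination (MvPowerSeries (Fin r) 𝒪) L.b) ?_
    intro x
    obtain ⟨c, hc⟩ := L.b_span x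
    refine ⟨fun i => L.φ (c i), ?_⟩
    rw [hc, Fintype.linearCombination_apply]
  have hmemN : ∀ y ∈ rs.map L.φ, y ∈ maximalIdeal (MvPowerSeries (Fin r) 𝒪) := by
    intro y hy
    rw [IsLocalRing.mem_maximalIdeal, mem_nonunits_iff]
    intro hu
    apply hregN.top_ne_smul
    have htop : Ideal.ofList (rs.map L.φ) = ⊤ :=
      Ideal.eq_top_of_isUnit_mem _ (Ideal.subset_span hy) hu
    rw [htop, Submodule.top_smul]
  refine ⟨?_, hfin, hNnt⟩
  exact free_of_regular_aux (r + 1) (MvPowerSeries (Fin r) 𝒪) s hs hspan hdim L.N (rs.map L.φ)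
    (by simpa using hlen) hmemN hregN

theorem result
    {𝒪 : Type} [CommRing 𝒪] [IsDomain 𝒪] [IsDiscreteValuationRing 𝒪]
    {r : ℕ} {R : Type} [CommRing R] [Algebra 𝒪 R]
    {M : Type} [AddCommGroup M] [Module R M] [Nontrivial M]
    (L : Algebra.PatchingLevel 𝒪 r R M ⊥) :
    Module.Free R M ∧ Module.annihilator R M = ⊥ ∧
      RingHom.ker L.ψ = Ideal.span (Set.range fun i : Fin r => L.φ (MvPowerSeries.X i)) := by
  classical
  obtain ⟨hfree, hfin, hNnt⟩ := free_N L
  let ι := Module.Free.ChooseBasisIndex (MvPowerSeries (Fin r) 𝒪) L.N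
  let bN : Module.Basis ι (MvPowerSeries (Fin r) 𝒪) L.N :=
    Module.Free.chooseBasis (MvPowerSeries (Fin r) 𝒪) L.N
  have hι : Nonempty ι := bN.index_nonempty
  set 𝔞 : Ideal (MvPowerSeries (Fin r) 𝒪) :=
    Ideal.span (Set.range fun i : Fin r => L.φ (MvPowerSeries.X i)) with h𝔞
  have h𝔞le : 𝔞 ≤ RingHom.ker L.ψ := by
    rw [h𝔞, Ideal.span_le]
    rintro _ ⟨i, rfl⟩
    exact L.ψ_φ_X i
  -- coordinates of elements of 𝔞 • ⊤ lie in 𝔞
  have hcoord : ∀ x ∈ 𝔞 • (⊤ : Submodule (MvPowerSeries (Fin r) 𝒪) L.N), ∀ j, bN.repr x j ∈ 𝔞 := by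
    intro x hx j
    refine Submodule.smul_induction_on hx ?_ ?_
    · intro a ha y _
      rw [map_smul, Finsupp.smul_apply, smul_eq_mul]
      exact Ideal.mul_mem_right _ _ ha
    · intro y z hy hz
      rw [map_add, Finsupp.add_apply]
      exact Ideal.add_mem _ hy hz
  -- the candidate basis of M
  let m : ι → M := fun j => L.π (bN j)
  have hπsum : ∀ f : ι → MvPowerSeries (Fin r) 𝒪,
      L.π (∑ j, f j • bN j) = ∑ j, L.ψ (f j) • m j := by
    intro f
    rw [map_sum]
    exact Finset.sum_congr rfl fun j _ => L.π_smul _ _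
  have hli : LinearIndependent R m := by
    rw [Fintype.linearIndependent_iff]
    intro g hg j
    choose f hf using fun j => L.ψ_surjective (g j)
    have h1 : L.π (∑ j, f j • bN j) = 0 := by
      rw [hπsum, ← hg]
      exact Finset.sum_congr rfl fun j _ => by rw [hf]
    have h2 := hcoord _ ((L.ker_π _).mp h1) j
    have h3 : bN.repr (∑ j, f j • bN j) j = f j :=
      congrFun (Module.Basis.repr_sum_self bN f) j
    rw [h3] at h2
    rw [← hf j]
    exact h𝔞le h2
  have hsp : ⊤ ≤ Submodule.span R (Set.range m) := by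
    intro y _
    obtain ⟨x, rfl⟩ := L.π_surjective y
    rw [← bN.sum_repr x, hπsum]
    exact Submodule.sum_mem _ fun j _ => Submodule.smul_mem _ _ (Submodule.subset_span ⟨j, rfl⟩)
  let bM : Module.Basis ι R M := Module.Basis.mk hli hsp
  have hfreeM : Module.Free R M := Module.Free.of_basis bM
  refine ⟨hfreeM, ?_, ?_⟩
  · rw [Module.annihilator_eq_bot]
    infer_instance
  · apply le_antisymm
    · intro f hf
      obtain ⟨j⟩ := hι
      have h1 : L.π (f • bN j) = 0 := by
        rw [L.π_smul, RingHom.mem_ker.mp hf, zero_smul]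
      have h2 := hcoord _ ((L.ker_π _).mp h1) j
      rw [map_smul, Finsupp.smul_apply, Module.Basis.repr_self, Finsupp.single_eq_same,
        smul_eq_mul, mul_one] at h2
      exact h2
    · exact h𝔞le

end Fermat.Agent.S57
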